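/-
Row 37 (S43), block E0/O (architect helper98): the geometric kernel (O) of (E') at level `Γ₀(M q)`:
"a class fixed by inertia whose representative is a unit at both vertical valuations is orthogonal,
for the Weil pairing, to every toric class".   DEFINITIONS (report #1668).

ABSTRACT LAYER.  `K₀` = inertia field, `A₀` its valuation ring, `F` = function field over `K₀`,
`V 0`, `V 1` the two vertical valuation rings, `Pts` the local rings of the closed points of the
regular model, `X` the set of geometric points; `Hv P` = the (horizontal) valuation ring of `F` cut out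
by `P`, `Cen P R` = "`P` specialises to the closed point `R`".
-/
import Mathlib
import Fermat.Agent.S18.Defs
import Fermat.Agent.S36.BP.Defs
import Fermat.Agent.S44.X.PL.Defs
import Fermat.Agent.S19.Weil.Defs

set_option autoImplicit false

noncomputable section

namespace Fermat.Agent.S43.E0.O

open Polynomial AlgebraicCurve Fermat.Agent.S18 Fermat.Agent.S36.BP Fermat.Agent.S44
  Fermat.Agent.S27 Fermat.Agent.S19.Weil

section Abs

variable {K₀ F : Type*} [Field K₀] [Field F] [Algebra K₀ F]

/-- A regular closed point of a model with two vertical components `V 0`, `V 1`: a node `x y = q`, or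
a smooth point on one component, away from the other one. -/
def IsRegP (A₀ : ValuationSubring K₀) (q : ℕ) (V : Fin 2 → ValuationSubring F) (R : Subring F) :
    Prop :=
  (∃ x y : F, PL.IsNode A₀ q R (V 0) (V 1) x y) ∨
    (PL.IsSmooth A₀ q R (V 0) ∧ Away R (V 1)) ∨ (PL.IsSmooth A₀ q R (V 1) ∧ Away R (V 0))

/-- Finitely many closed points lie in a common affine chart `B` (each `R` is a localisation of
`B`), and `B` is contained in the vertical valuation rings. -/
def CommonChart (A₀ : ValuationSubring K₀) (V : Fin 2 → ValuationSubring F)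
    (Pts : Set (Subring F)) : Prop :=
  ∀ S : Finset (Subring F), (∀ R ∈ S, R ∈ Pts) → ∃ B : Subring F,
    (∀ a ∈ A₀, algebraMap K₀ F a ∈ B) ∧ (∀ c, ∀ b ∈ B, b ∈ V c) ∧
      ∀ R ∈ S, (∀ b ∈ B, b ∈ R) ∧ ∀ r ∈ R, ∃ s ∈ B, RUnit R s ∧ s * r ∈ B

/-- The geometric points. -/
structure GeoPts (A₀ : ValuationSubring K₀) (Pts : Set (Subring F)) {X : Type*}
    (Hv : X → ValuationSubring F) (Cen : X → Subring F → Prop) : Prop where
  const : ∀ P (a : K₀), algebraMap K₀ F a ∈ Hv P
  disc : ∀ P, ∃ ϖ : F, IsUnif (Hv P) ϖ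
  le : ∀ P R, Cen P R → ∀ r ∈ R, r ∈ Hv P
  fin : ∀ f : F, f ≠ 0 → {P | f ∉ Hv P}.Finite
  /-- every horizontal prime divisor through `R` comes from a geometric point centred at `R` -/
  cover : ∀ R ∈ Pts, ∀ W : ValuationSubring F, (∀ a : K₀, algebraMap K₀ F a ∈ W) →
    (∀ r ∈ R, r ∈ W) → W ≠ ⊤ → ∃ P, Cen P R ∧ Hv P = W
  /-- the minimal polynomial of the value at `P` of a function vanishing at the centre of `P` -/
  kill : ∀ P R, Cen P R → ∀ e ∈ rad R, ∃ μ : K₀[X], μ.Monic ∧
    (∀ i < μ.natDegree, A₀.valuation (μ.coeff i) < 1) ∧ (Hv P).valuation (aeval e μ) < 1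

/-- **The abstract context.** -/
structure Ctx (K₀ F X : Type) [Field K₀] [Field F] [Algebra K₀ F] where
  A₀ : ValuationSubring K₀
  q : ℕ
  V : Fin 2 → ValuationSubring F
  Pts : Set (Subring F)
  Hv : X → ValuationSubring F
  Cen : X → Subring F → Prop
  base : BaseHyp A₀ q
  reg : ∀ R ∈ Pts, IsRegP A₀ q V R
  chart : CommonChart A₀ V Pts
  geo : GeoPts A₀ Pts Hv Cen

end Abs

section Geo

variable {F Kb FB : Type*} [Field F] [Field Kb] [Field FB] [Algebra Kb FB]

/-- The place `P` of `FB` specialises (via the valuation ring `A` of the constants) to the closed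
point `R`. -/
def CenAt (φ : F →+* FB) (A : ValuationSubring Kb) (P : Place Kb FB) (R : Subring F) : Prop :=
  (∀ r ∈ R, 0 ≤ P.ord (φ r) ∧ ev P (φ r) ∈ A) ∧ ∀ r ∈ rad R, A.valuation (ev P (φ r)) < 1

end Geo

/-- **The geometric context**: `FB = F ⊗ Kb`, the geometric points are the places of `FB`. -/
structure GCtx (K₀ F Kb FB : Type) [Field K₀] [Field F] [Algebra K₀ F] [Field Kb] [Field FB]
    [Algebra Kb FB] [Algebra K₀ Kb] where
  φ : F →+* FB
  A : ValuationSubring Kb
  C : Ctx K₀ F (Place Kb FB)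
  φ_const : ∀ a : K₀, φ (algebraMap K₀ F a) = algebraMap Kb FB (algebraMap K₀ Kb a)
  hHv : ∀ P, C.Hv P = P.toValuationSubring.comap φ
  hCen : ∀ P R, C.Cen P R ↔ CenAt φ A P R
  center : ∀ P, ∃ R ∈ C.Pts, C.Cen P R
  mu : ∀ (n : ℕ) (ζ : Kb), ¬ C.q ∣ n → ζ ^ n = 1 → A.valuation (ζ - 1) < 1 → ζ = 1

end Fermat.Agent.S43.E0.O

end
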