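/-
Row 37 (S43), block E0/O (architect helper98): CONTRACT of the ABSTRACT LAYER (nodes A1-A8, B1).
Proofs: report #1668 and the task specs.  Every node is a `Prop`; a leaf proves `theorem nodeXxx : NodeXxx`
(possibly from earlier nodes) in its own file `S43/E0/O/Abs/<Xxx>.lean`.
-/
import Fermat.Agent.S43.E0.O.Defs

set_option autoImplicit false

noncomputable section

namespace Fermat.Agent.S43.E0.O

open Polynomial AlgebraicCurve Fermat.Agent.S18 Fermat.Agent.S36.BP Fermat.Agent.S44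
  Fermat.Agent.S27 Fermat.Agent.S19.Weil Fermat.Agent.S24.FF

/-- **A1** (CRT): a function `= 1` at `R`, vanishing at the other points of `S`, regular on `S`. -/
def NodeSep : Prop :=
  ∀ (K₀ F X : Type) [Field K₀] [Field F] [Algebra K₀ F] (C : Ctx K₀ F X) (S : Finset (Subring F)),
    (∀ R ∈ S, R ∈ C.Pts) → ∀ R ∈ S, ∃ e : F, (∀ R' ∈ S, e ∈ R') ∧ e - 1 ∈ rad R ∧
      ∀ R' ∈ S, R' ≠ R → e ∈ rad R'

/-- **A2**: a function `= 1` at `R`, regular on `S`, vanishing along a component which does not pass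
through `R`. -/
def NodeAway : Prop :=
  ∀ (K₀ F X : Type) [Field K₀] [Field F] [Algebra K₀ F] (C : Ctx K₀ F X) (S : Finset (Subring F)),
    (∀ R ∈ S, R ∈ C.Pts) → ∀ R ∈ S, ∀ c, Away R (C.V c) →
      ∃ e : F, (∀ R' ∈ S, e ∈ R') ∧ e - 1 ∈ rad R ∧ (C.V c).valuation e < 1

/-- **A3**: a function without poles along the prime divisors through `R` lies in `R`. -/
def NodeMem : Prop :=
  ∀ (K₀ F : Type) [Field K₀] [Field F] [Algebra K₀ F] (A₀ : ValuationSubring K₀) (q : ℕ)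
    (V : Fin 2 → ValuationSubring F) (R : Subring F), IsUnif A₀ (q : K₀) → IsRegP A₀ q V R →
    ∀ f : F, (∀ c, Through R (V c) → f ∈ V c) →
      (∀ W : ValuationSubring F, (∀ a : K₀, algebraMap K₀ F a ∈ W) → (∀ r ∈ R, r ∈ W) → f ∈ W) →
      f ∈ R

/-- **A4**: a function `= 1` at `R`, regular on `S`, vanishing at a geometric point `P` centred at
another point `R'` of `S`. -/
def NodeKill : Prop :=
  ∀ (K₀ F X : Type) [Field K₀] [Field F] [Algebra K₀ F] (C : Ctx K₀ F X) (S : Finset (Subring F)),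
    (∀ R ∈ S, R ∈ C.Pts) → ∀ R ∈ S, ∀ R' ∈ S, R' ≠ R → ∀ P, C.Cen P R' →
      ∃ e : F, (∀ R'' ∈ S, e ∈ R'') ∧ e - 1 ∈ rad R ∧ (C.Hv P).valuation e < 1

/-- **A5**: clearing the poles of `f` at `R'` by a function `= 1` at `R`. -/
def NodeClear : Prop :=
  ∀ (K₀ F X : Type) [Field K₀] [Field F] [Algebra K₀ F] (C : Ctx K₀ F X) (S : Finset (Subring F)),
    (∀ R ∈ S, R ∈ C.Pts) → ∀ R ∈ S, ∀ R' ∈ S, R' ≠ R → ∀ f : F, f ≠ 0 →
      (∀ c, Through R' (C.V c) → f ∈ C.V c ∨ Away R (C.V c)) →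
      ∃ b : F, (∀ R'' ∈ S, b ∈ R'') ∧ b - 1 ∈ rad R ∧ b * f ∈ R'

/-- **A6** (gluing). -/
def NodeGlue : Prop :=
  ∀ (K₀ F X : Type) [Field K₀] [Field F] [Algebra K₀ F] (C : Ctx K₀ F X) (S : Finset (Subring F)),
    (∀ R ∈ S, R ∈ C.Pts) → ∀ t : Subring F → F, (∀ R ∈ S, t R ≠ 0) →
      (∀ R ∈ S, ∀ c, Through R (C.V c) → (C.V c).valuation (t R) = 1) →
      ∃ g : F, g ≠ 0 ∧ ∀ R ∈ S, g / t R - 1 ∈ rad R

/-- **A7** (local root). -/
def NodeLocal : Prop :=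
  ∀ (K₀ F : Type) [Field K₀] [Field F] [Algebra K₀ F] (A₀ : ValuationSubring K₀) (q : ℕ)
    (V : Fin 2 → ValuationSubring F) (R : Subring F), BaseHyp A₀ q → IsRegP A₀ q V R →
    ∀ (n : ℕ) (u : F), ¬ q ∣ n → (∀ c, (V c).valuation u = 1) → HorDiv K₀ n u →
      ∃ t : F, t ≠ 0 ∧ (∀ c, Through R (V c) → (V c).valuation t = 1) ∧ u * t ^ n - 1 ∈ rad R

/-- **A8** (semilocal lemma): `u` is `≡ 1` at all the points of `S`, up to an `n`-th power. -/
def NodeSemilocal : Prop :=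
  ∀ (K₀ F X : Type) [Field K₀] [Field F] [Algebra K₀ F] (C : Ctx K₀ F X) (S : Finset (Subring F)),
    (∀ R ∈ S, R ∈ C.Pts) → ∀ (n : ℕ) (u : F), ¬ C.q ∣ n → (∀ c, (C.V c).valuation u = 1) →
      HorDiv K₀ n u → ∃ g : F, g ≠ 0 ∧ ∀ R ∈ S, u * g ^ n - 1 ∈ rad R

/-- **B1** (orthogonality, abstract form). -/
def NodeOrthAbs : Prop :=
  ∀ (K₀ F Kb FB : Type) [Field K₀] [Field F] [Algebra K₀ F] [Field Kb] [Field FB] [Algebra Kb FB]
    [Algebra K₀ Kb] [IsAlgClosed Kb] [CharZero Kb] [IsFF1 Kb FB] [NonConst Kb FB]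
    (G : GCtx K₀ F Kb FB) (n : ℕ), 0 < n → ¬ G.C.q ∣ n →
    ∀ (x y : Pic0 Kb FB) (a : TorsRep n x) (b : TorsRep n y) (u w : F),
      a.f = G.φ u → b.f = G.φ w → (∀ c, (G.C.V c).valuation u = 1) → HorDiv K₀ n u →
      (∀ c, (G.C.V c).valuation (w - 1) < 1) → weil n x y = 1

end Fermat.Agent.S43.E0.O

end
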