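/-
Row 37 (S43), block E0, sub-block (O) (helper187): THE FINAL EVALUATION LEMMA, abstract
(`S19/Weil` + `S15/Pair/Basic` only).

`F` a function field in one variable over an algebraically closed field `K` of characteristic `0`,
`A` a valuation ring of `K` in which `n` is a unit.  `a = (D, u)`, `b = (E, w)` representatives of two
`n`-torsion classes `x`, `y`.  If there are a set `S` of places ("the tube over the bad points `Z`") and `f ≠ 0` with
* `u f ^ n` is a unit with value in `1 + m_A` at every place of `S`,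
* `w` is a unit with value in `1 + m_A` at every place outside `S`,
then `e_n(x, y) = 1`.
-/
import Fermat.Agent.S15.Pair.Basic

set_option autoImplicit false

noncomputable section

namespace Fermat.Agent.S43.E0.O

open AlgebraicCurve Fermat.Agent.S24.FF Fermat.Agent.S27 Fermat.Agent.S19.Weil

section OneUnits

variable {K : Type*} [Field K]

/-- `c ∈ 1 + m_A`. -/
def IsU1 (A : ValuationSubring K) (c : K) : Prop := A.valuation (c - 1) < 1

variable {A : ValuationSubring K}

theorem isU1_one : IsU1 A 1 := by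
  rw [IsU1, sub_self, map_zero]
  exact zero_lt_one

theorem IsU1.valuation_eq_one {c : K} (h : IsU1 A c) : A.valuation c = 1 := by
  have h1 := Valuation.map_one_add_of_lt (v := A.valuation) h
  rwa [add_sub_cancel] at h1

theorem IsU1.ne_zero {c : K} (h : IsU1 A c) : c ≠ 0 := by
  rintro rfl
  have := h.valuation_eq_one
  rw [map_zero] at this
  exact zero_ne_one this

theorem IsU1.mul {c d : K} (hc : IsU1 A c) (hd : IsU1 A d) : IsU1 A (c * d) := by
  have e : c * d - 1 = (c - 1) * d + (d - 1) := by ring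
  rw [IsU1, e]
  refine lt_of_le_of_lt (A.valuation.map_add _ _) (max_lt ?_ hd)
  rw [map_mul, hd.valuation_eq_one, mul_one]
  exact hc

theorem IsU1.inv {c : K} (hc : IsU1 A c) : IsU1 A c⁻¹ := by
  have e : c⁻¹ - 1 = -(c - 1) * c⁻¹ := by
    field_simp [hc.ne_zero]
    ring
  rw [IsU1, e, map_mul, Valuation.map_neg, map_inv₀, hc.valuation_eq_one, inv_one, mul_one]
  exact hc

theorem IsU1.div {c d : K} (hc : IsU1 A c) (hd : IsU1 A d) : IsU1 A (c / d) := by
  rw [div_eq_mul_inv]
  exact hc.mul hd.inv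

theorem IsU1.pow {c : K} (hc : IsU1 A c) (m : ℕ) : IsU1 A (c ^ m) := by
  induction m with
  | zero => rw [pow_zero]; exact isU1_one
  | succ m ih => rw [pow_succ]; exact ih.mul hc

theorem IsU1.zpow {c : K} (hc : IsU1 A c) (m : ℤ) : IsU1 A (c ^ m) := by
  obtain ⟨k, rfl | rfl⟩ := m.eq_nat_or_neg
  · rw [zpow_natCast]; exact hc.pow k
  · rw [zpow_neg, zpow_natCast]; exact (hc.pow k).inv

theorem isU1_prod {ι : Type*} (s : Finset ι) (c : ι → K) (h : ∀ i ∈ s, IsU1 A (c i)) :
    IsU1 A (∏ i ∈ s, c i) := by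
  classical
  induction s using Finset.induction_on with
  | empty => rw [Finset.prod_empty]; exact isU1_one
  | insert i s hi ih =>
    rw [Finset.prod_insert hi]
    exact (h i (Finset.mem_insert_self i s)).mul (ih fun j hj => h j (Finset.mem_insert_of_mem hj))

/-- an `n`-th root of unity in `1 + m_A` is `1` if `n` is a unit of `A` -/
theorem IsU1.eq_one_of_pow_eq_one {c : K} (hc : IsU1 A c) {n : ℕ}
    (hn : A.valuation (n : K) = 1) (h : c ^ n = 1) : c = 1 := by
  by_contra hne
  have h1 : (c - 1) * ∑ i ∈ Finset.range n, c ^ i = 0 := by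
    rw [mul_comm, geom_sum_mul, h, sub_self]
  have h2 : ∑ i ∈ Finset.range n, c ^ i = 0 :=
    (mul_eq_zero.1 h1).resolve_left (sub_ne_zero.2 hne)
  have h3 : A.valuation (∑ i ∈ Finset.range n, (c ^ i - 1)) < 1 :=
    Valuation.map_sum_lt _ one_ne_zero fun i _ => hc.pow i
  rw [Finset.sum_sub_distrib, h2, zero_sub, Valuation.map_neg, Finset.sum_const, Finset.card_range,
    nsmul_eq_mul, mul_one, hn] at h3
  exact lt_irrefl _ h3

end OneUnits

variable {K F : Type*} [Field K] [Field F] [Algebra K F] [IsAlgClosed K] [CharZero K] [IsFF1 K F]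
  [NonConst K F]

omit [IsAlgClosed K] [CharZero K] [IsFF1 K F] [NonConst K F] in
theorem isU1_evDiv {A : ValuationSubring K} (f : F) (D : Divisor K F)
    (h : ∀ v : Place K F, D v ≠ 0 → IsU1 A (ev v f)) : IsU1 A (evDiv f D) := by
  unfold evDiv Finsupp.prod
  exact isU1_prod _ _ fun v hv => (h v (Finsupp.mem_support_iff.1 hv)).zpow _

/-- **The evaluation lemma of (O).** -/
theorem weil_eq_one_of_tube {n : ℕ} (hn : 0 < n) (A : ValuationSubring K)
    (hnA : A.valuation (n : K) = 1) {x y : Pic0 K F} (a : TorsRep n x) (b : TorsRep n y)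
    (S : Set (Place K F)) (f : F) (hf : f ≠ 0)
    (ha : ∀ v ∈ S, v.ord (f ^ n * a.f) = 0 ∧ IsU1 A (ev v (f ^ n * a.f)))
    (hb : ∀ v ∉ S, v.ord b.f = 0 ∧ IsU1 A (ev v b.f)) :
    weil n x y = 1 := by
  obtain ⟨G, hG⟩ := exists_isDivOf (K := K) f hf
  set a' : TorsRep n x := a.move f G hG with ha'
  have hn0 : (n : ℤ) ≠ 0 := by exact_mod_cast hn.ne'
  -- supports
  have hDa : ∀ v : Place K F, a'.D v ≠ 0 → v ∉ S := by
    intro v hv hvS
    apply hv
    have h1 := a'.div.2 v
    have h2 : a'.f = f ^ n * a.f := rfl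
    rw [h2, (ha v hvS).1, Finsupp.smul_apply, smul_eq_mul] at h1
    exact (mul_eq_zero.1 h1).resolve_left hn0
  have hDb : ∀ v : Place K F, b.D v ≠ 0 → v ∈ S := by
    intro v hv
    by_contra hvS
    apply hv
    have h1 := b.div.2 v
    rw [(hb v hvS).1, Finsupp.smul_apply, smul_eq_mul] at h1
    exact (mul_eq_zero.1 h1).resolve_left hn0
  have hdisj : Disjoint a'.D.support b.D.support := by
    rw [Pairing.disjoint_iff]
    intro v hv
    by_contra hbv
    exact hDa v hv (hDb v hbv)
  have h1 : IsU1 A (weilRep a' b) :=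
    (isU1_evDiv _ _ fun v hv => (ha v (hDb v hv)).2).div
      (isU1_evDiv _ _ fun v hv => (hb v (hDa v hv)).2)
  rw [← weil_eq hn a' b hdisj] at h1
  exact h1.eq_one_of_pow_eq_one hnA
    (Fermat.Agent.S15.Pair.weil_pow_eq_one hn a.zsmul_eq_zero b.zsmul_eq_zero)

end Fermat.Agent.S43.E0.O

end
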