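/-
Row 37 (S43), block E0, sub-block (O), leaf O-TOP (helper187): THE ABSTRACT ASSEMBLY of (O).

`F₀` = function field over the inertia field `K₀` (`FK (K0 A) L`), `F` = function field over `K = ℚ̄` (`FN L`),
`j : F₀ →+* F` the base change (`bcX`), `A` the valuation ring of `K`, `Pts` the set of closed points of the model
(subrings of `F₀`, language of `S36/BP/Defs.lean`: `RUnit`, `rad`).

* `Cen A j v R`  : the point `R` is the centre of the place `v` of `F` (for the composite valuation `A ∘ v`):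
                   `r ∈ R → r` regular at `v` with value in `A`;  `r ∈ rad R → r(v) ∈ m_A`.
* (CTR)  every place has a centre in `Pts`;
* (FIN)  `w ∈ 1 + rad R` for all but finitely many `R ∈ Pts`;
* (SL)   for every finite `Z ⊆ Pts` there is `f ≠ 0` with `u f ^ n ∈ 1 + rad R` for all `R ∈ Z`.
Then `e_n([u], [w]) = 1`.
-/
import Fermat.Agent.S43.E0.O.WeilOne
import Fermat.Agent.S36.BP.Defs

set_option autoImplicit false

noncomputable section

namespace Fermat.Agent.S43.E0.O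

open AlgebraicCurve Fermat.Agent.S24.FF Fermat.Agent.S27 Fermat.Agent.S19.Weil Fermat.Agent.S36.BP

variable {K F F₀ : Type*} [Field K] [Field F] [Algebra K F] [Field F₀]

/-- The subring `R` of `F₀` is dominated by the composite of the place `v` of `F` and the valuation ring `A` of `K`. -/
def Cen (A : ValuationSubring K) (j : F₀ →+* F) (v : Place K F) (R : Subring F₀) : Prop :=
  (∀ r ∈ R, 0 ≤ v.ord (j r) ∧ ev v (j r) ∈ A) ∧ ∀ r ∈ rad R, A.valuation (ev v (j r)) < 1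

variable [IsAlgClosed K] [CharZero K] [IsFF1 K F] [NonConst K F]

omit [CharZero K] [NonConst K F] in
/-- evaluation: `r ∈ 1 + rad R`, `v` centred at `R` `⟹` `r` is a unit at `v` with value in `1 + m_A`. -/
theorem Cen.isU1 {A : ValuationSubring K} {j : F₀ →+* F} {v : Place K F} {R : Subring F₀}
    (h : Cen A j v R) {r : F₀} (hr : r - 1 ∈ rad R) : v.ord (j r) = 0 ∧ IsU1 A (ev v (j r)) := by
  have h1 := (h.1 _ hr.1).1
  have h2 := h.2 _ hr
  have e : j r = j (r - 1) + algebraMap K F 1 := by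
    rw [map_sub, map_one, map_one, sub_add_cancel]
  have h3 : IsVal v (j r) (ev v (j (r - 1)) + 1) := by
    rw [e]
    exact (isVal_ev h1).add (isVal_algebraMap v 1)
  have h4 : IsU1 A (ev v (j (r - 1)) + 1) := by
    rw [IsU1, add_sub_cancel_right]
    exact h2
  rw [ev_eq_of_isVal h3]
  exact ⟨(h3.ord_eq_zero h4.ne_zero).2, h4⟩

/-- **(O), abstract form.** -/
theorem weil_eq_one_of_model {n : ℕ} (hn : 0 < n) (A : ValuationSubring K)
    (hnA : A.valuation (n : K) = 1) (j : F₀ →+* F) (Pts : Set (Subring F₀))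
    (hCTR : ∀ v : Place K F, ∃ R ∈ Pts, Cen A j v R)
    {x y : Pic0 K F} (a : TorsRep n x) (b : TorsRep n y) (u w : F₀) (hu : a.f = j u)
    (hw : b.f = j w)
    (hFIN : {R ∈ Pts | w - 1 ∉ rad R}.Finite)
    (hSL : ∀ Z : Set (Subring F₀), Z ⊆ Pts → Z.Finite →
      ∃ f : F₀, f ≠ 0 ∧ ∀ R ∈ Z, f ^ n * u - 1 ∈ rad R) :
    weil n x y = 1 := by
  obtain ⟨f, hf0, hf⟩ := hSL _ (fun R hR => hR.1) hFIN
  refine weil_eq_one_of_tube hn A hnA a b {v | ∃ R ∈ Pts, w - 1 ∉ rad R ∧ Cen A j v R} (j f)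
    ((map_ne_zero j).2 hf0) ?_ ?_
  · rintro v ⟨R, hR, hwR, hc⟩
    rw [hu, ← map_pow, ← map_mul]
    exact hc.isU1 (hf R ⟨hR, hwR⟩)
  · intro v hv
    obtain ⟨R, hR, hc⟩ := hCTR v
    rw [hw]
    refine hc.isU1 ?_
    by_contra hwR
    exact hv ⟨R, hR, hwR, hc⟩

omit [CharZero K] [NonConst K F] in
/-- a sum `1 + ∑ cᵢ εᵢ`, `cᵢ ∈ m_A`, `εᵢ` regular at `v` with values in `A`, is a unit at `v` with value in `1 + m_A`. -/
theorem isU1_of_span {A : ValuationSubring K} {v : Place K F} {m : ℕ} (c : Fin m → K)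
    (e : Fin m → F) (hc : ∀ i, A.valuation (c i) < 1)
    (he : ∀ i, 0 ≤ v.ord (e i) ∧ ev v (e i) ∈ A) {g : F}
    (hg : g - 1 = ∑ i, algebraMap K F (c i) * e i) : v.ord g = 0 ∧ IsU1 A (ev v g) := by
  have h1 : ∀ s : Finset (Fin m), IsVal v (∑ i ∈ s, algebraMap K F (c i) * e i)
      (∑ i ∈ s, c i * ev v (e i)) := by
    intro s
    classical
    induction s using Finset.induction_on with
    | empty =>
      rw [Finset.sum_empty, Finset.sum_empty]
      simpa using isVal_algebraMap (F := F) v (0 : K)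
    | insert i s hi ih =>
      rw [Finset.sum_insert hi, Finset.sum_insert hi]
      exact ((isVal_algebraMap v (c i)).mul (isVal_ev (he i).1)).add ih
  have h2 : IsVal v g (∑ i, c i * ev v (e i) + 1) := by
    have e1 : g = ∑ i, algebraMap K F (c i) * e i + algebraMap K F 1 := by
      rw [← hg, map_one, sub_add_cancel]
    rw [e1]
    exact (h1 Finset.univ).add (isVal_algebraMap v 1)
  have h3 : IsU1 A (∑ i, c i * ev v (e i) + 1) := by
    rw [IsU1, add_sub_cancel_right]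
    refine Valuation.map_sum_lt _ one_ne_zero fun i _ => ?_
    rw [map_mul]
    exact mul_lt_one_of_nonneg_of_lt_one_left zero_le (hc i)
      ((A.valuation_le_one_iff _).2 (he i).2)
  rw [ev_eq_of_isVal h2]
  exact ⟨(h2.ord_eq_zero h3.ne_zero).2, h3⟩

/-- **(O), abstract form with the toric function over `K`** (helper19's DAG of 12:50):
`(ctr)` centres, `(fin)` a vertically integral function lies in all but finitely many points, `(move)`, `(span)`. -/
theorem weil_eq_one_of_span {n : ℕ} (hn : 0 < n) (A : ValuationSubring K)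
    (hnA : A.valuation (n : K) = 1) (j : F₀ →+* F) (Pts : Set (Subring F₀))
    {ι : Type*} (V : ι → ValuationSubring F₀)
    (ctr : ∀ v : Place K F, ∃ R ∈ Pts, (∀ r ∈ R, 0 ≤ v.ord (j r) ∧ ev v (j r) ∈ A) ∧
      ∀ r ∈ rad R, A.valuation (ev v (j r)) < 1)
    (fin : ∀ ε : F₀, (∀ c, ε ∈ V c) → {R ∈ Pts | ε ∉ R}.Finite)
    {x y : Pic0 K F} (a : TorsRep n x) (b : TorsRep n y) (u : F₀) (hu : a.f = j u)
    (move : ∀ Z : Set (Subring F₀), Z ⊆ Pts → Z.Finite →
      ∃ h : F₀, h ≠ 0 ∧ ∀ R ∈ Z, h ^ n * u - 1 ∈ rad R)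
    {m : ℕ} (c : Fin m → K) (ε : Fin m → F₀) (hc : ∀ i, A.valuation (c i) < 1)
    (hε : ∀ i k, ε i ∈ V k) (span : b.f - 1 = ∑ i, algebraMap K F (c i) * j (ε i)) :
    weil n x y = 1 := by
  have hZfin : (⋃ i, {R ∈ Pts | ε i ∉ R}).Finite :=
    Set.finite_iUnion fun i => fin (ε i) (hε i)
  have hZsub : (⋃ i, {R ∈ Pts | ε i ∉ R}) ⊆ Pts := by
    intro R hR
    obtain ⟨i, hi⟩ := Set.mem_iUnion.1 hR
    exact hi.1
  obtain ⟨f, hf0, hf⟩ := move _ hZsub hZfin
  refine weil_eq_one_of_tube hn A hnA a b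
    {v | ∃ R ∈ (⋃ i, {R ∈ Pts | ε i ∉ R}), Cen A j v R} (j f) ((map_ne_zero j).2 hf0) ?_ ?_
  · rintro v ⟨R, hR, hcen⟩
    rw [hu, ← map_pow, ← map_mul]
    exact hcen.isU1 (hf R hR)
  · intro v hv
    obtain ⟨R, hR, hcen⟩ := ctr v
    refine isU1_of_span c (fun i => j (ε i)) hc (fun i => hcen.1 _ ?_) span
    by_contra hi
    exact hv ⟨R, Set.mem_iUnion.2 ⟨i, hR, hi⟩, hcen⟩

end Fermat.Agent.S43.E0.O

end
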