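/-
Row 37 (S43), block E0, sub-block (O), leaf CTR, INSTANCE (helper19): every place of `FN L` (over `ℚ̄`) is
centred at a closed point of the model glued from `chart (A0 A) z` and `chart (A0 A) z⁻¹`, for ANY
`z : FK (K0 A) L`.  (Abstract part: helper59's `Centre/Abs.lean`, `Centre/Comp.lean`.)
-/
import Fermat.Agent.S43.E0.O.Top
import Fermat.Agent.S43.E0.Centre.Comp
import Fermat.Agent.S44.X.Cover.Defs
import Fermat.Agent.Lib.InertiaField.Residue
import Fermat.Agent.S24.Export.Ramification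

set_option autoImplicit false

noncomputable section

namespace Fermat.Agent.S43.E0.O

open ModularCurve AlgebraicCurve Fermat.Agent.S24 Fermat.Agent.S24.FF Fermat.Agent.S27
  Fermat.Agent.S18 Fermat.Agent.S36.BP Fermat.Agent.BAD.LevelQ Fermat.Agent.BAD.Bridge
  Fermat.Agent.Lib.InertiaField Fermat.Agent.S44.X.Cover Fermat.Agent.S43.E0.Centre Fermat.Agent.GAL

theorem bcX_const (A : ValuationSubring Kbar) (L : ℕ) (a : K0 A) :
    bcX (K0 A) L (algebraMap (K0 A) (FK (K0 A) L) a) = algebraMap Kbar (FN L) (a : Kbar) :=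
  S18.Descent.baseChangeMap_algebraMap _ a

/-- the composite valuation ring of a place of `FN L` and `A`, restricted to `FK (K0 A) L`, is of
closed point type. -/
theorem isClosedVal_vRing {q : ℕ} (hq : q.Prime) {A : ValuationSubring Kbar}
    (hA : A.LiesOverPrime q) (L : ℕ) [NeZero L] (v : Place Kbar (FN L)) :
    haveI : IsFF1 Kbar (FN L) := Export.isFF1 L
    IsClosedVal (A0 A) (vRing (bcX (K0 A) L) A v) := by
  haveI : IsFF1 Kbar (FN L) := Export.isFF1 L
  have hord : ∀ a : K0 A, v.ord (bcX (K0 A) L (algebraMap (K0 A) (FK (K0 A) L) a)) = 0 := by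
    intro a
    rw [bcX_const, ord_algebraMap]
  have hev : ∀ a : K0 A, ev v (bcX (K0 A) L (algebraMap (K0 A) (FK (K0 A) L) a)) = (a : Kbar) := by
    intro a
    rw [bcX_const, ev_algebraMap]
  refine ⟨fun a ha => mem_vRing.mpr ⟨(hord a).ge, by rw [hev]; exact ha⟩, fun a ha => ?_,
    fun y hy => ?_⟩
  · refine val_vRing_lt_one_iff.mpr ⟨(hord a).ge, ?_⟩
    rw [hev]
    have h1 : a ∈ (A0 A).nonunits := (ValuationSubring.mem_nonunits_iff _).2 ha
    exact (ValuationSubring.mem_nonunits_iff _).1 ((mem_nonunits_A0_iff A a).1 h1)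
  · obtain ⟨h0, h1⟩ := mem_vRing.mp hy
    obtain ⟨b, hbK, hbA, hlt⟩ := exists_mem_K0_sub_mem A q hq hA h1
    refine ⟨⟨b, hbK⟩, hbA, val_vRing_lt_one_iff.mpr ?_⟩
    have h2 : 0 ≤ v.ord (bcX (K0 A) L (algebraMap (K0 A) (FK (K0 A) L) ⟨b, hbK⟩)) := (hord _).ge
    rw [map_sub, ev_sub h0 h2, hev]
    exact ⟨ord_nonneg_of_mem v (sub_mem (mem_of_ord_nonneg v h0) (mem_of_ord_nonneg v h2)),
      (ValuationSubring.mem_nonunits_iff _).1 hlt⟩

/-- **CTR.**  Every place of `FN L` has a centre on the model. -/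
theorem exists_cen {q : ℕ} (hq : q.Prime) {A : ValuationSubring Kbar} (hA : A.LiesOverPrime q)
    (L : ℕ) [NeZero L] (z : FK (K0 A) L) (v : Place Kbar (FN L)) :
    ∃ R : Subring (FK (K0 A) L), IsModelPt (A0 A) (q : K0 A) z R ∧ Cen A (bcX (K0 A) L) v R := by
  haveI : IsFF1 Kbar (FN L) := Export.isFF1 L
  have hϖ : (A0 A).valuation (q : K0 A) < 1 := by
    have h1 : ((q : K0 A) : Kbar) ∈ A.nonunits := by
      have : ((q : K0 A) : Kbar) = (q : Kbar) := by push_cast; rfl
      rw [this]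
      exact hA
    exact (ValuationSubring.mem_nonunits_iff _).1 ((mem_nonunits_A0_iff A _).2 h1)
  obtain ⟨R, hR, hd⟩ := (isClosedVal_vRing hq hA L v).exists_modelPt hϖ z
  exact ⟨R, hR, centred_iff.1 hd⟩

end Fermat.Agent.S43.E0.O

end
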