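/-
Row 37 (S43), block E0, sub-block (O), leaf FIN (helper187).

`H : MChart A₀ ϖ₀ V z`.  A function `ε` which is integral at all the vertical valuation rings `V c` lies in all but
finitely many closed points of the model.

PROOF.  In a chart `B`, fix `c`.  `chart_loc`: `s ∈ B`, `V_c(s) = 1`, `s ε ∈ B`.  If `R = locSub B 𝔫 ⊆ V c` and `ε ∉ R` then
`P_c = B ∩ 𝔪_{V c} ≤ 𝔫` and `s ∈ 𝔫`.  A prime containing `P_c` and `s` is maximal (as in `MChart.exists_center`), so `𝔫` is a
minimal prime of `P_c + (s)`; `B` is noetherian.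
-/
import Fermat.Agent.BAD.LevelQ.Pt.Main

set_option autoImplicit false

noncomputable section

namespace Fermat.Agent.S43.E0.O

open Polynomial IntermediateField Fermat.Agent.S18 Fermat.Agent.S36.BP Fermat.Agent.BAD.Model
  Fermat.Agent.BAD.LevelQ

variable {K₀ F : Type*} [Field K₀] [Field F] [Algebra K₀ F]
variable {A₀ : ValuationSubring K₀} {ϖ₀ : K₀} {ι : Type*} {V : ι → ValuationSubring F} {z : F}

/-- the centre on the subring `B` of a valuation ring containing it. -/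
def finCenter (B : Subring F) (W : ValuationSubring F) (h : ∀ b ∈ B, b ∈ W) : Ideal B :=
  (IsLocalRing.maximalIdeal W).comap (Subring.inclusion (show B ≤ W.toSubring from h))

theorem mem_finCenter {B : Subring F} {W : ValuationSubring F} (h : ∀ b ∈ B, b ∈ W)
    (b : B) : b ∈ finCenter B W h ↔ W.valuation (b : F) < 1 := by
  rw [finCenter, Ideal.mem_comap]
  exact W.valuation_lt_one_iff _

theorem finCenter_isPrime {B : Subring F} {W : ValuationSubring F}
    (h : ∀ b ∈ B, b ∈ W) : (finCenter B W h).IsPrime :=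
  Ideal.comap_isPrime _ _

/-- A prime of the chart which contains strictly the vertical prime `P_c` is maximal. -/
theorem isMaximal_of_vert_lt (H : MChart A₀ ϖ₀ V z) (c : ι)
    (𝔭 : Ideal (chart A₀.toSubring z)) [h𝔭 : 𝔭.IsPrime]
    (hP : finCenter _ (V c) (H.chart_le c) ≤ 𝔭) (g : chart A₀.toSubring z) (hg : g ∈ 𝔭)
    (hg1 : (V c).valuation (g : F) = 1) : 𝔭.IsMaximal := by
  have h₀ := H.vert.unif₀
  have hBV := H.chart_le c
  set P : Ideal (chart A₀.toSubring z) := finCenter _ (V c) hBV with hPdef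
  have hPp : P.IsPrime := finCenter_isPrime hBV
  have hmP : ∀ b : chart A₀.toSubring z, b ∈ P ↔ (V c).valuation (b : F) < 1 :=
    mem_finCenter hBV
  have hgP : g ∉ P := by
    rw [hmP, hg1]
    exact lt_irrefl _
  -- going down to the polynomial ring
  obtain ⟨a, haA, ha𝔭, haP⟩ : ∃ a ∈ polyRing A₀.toSubring z,
      (∀ b : chart A₀.toSubring z, (b : F) = a → b ∈ 𝔭) ∧ (V c).valuation a = 1 := by
    let f : polyRing A₀.toSubring z →+* chart A₀.toSubring z :=
      Subring.inclusion (polyRing_le_chart _ _)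
    obtain ⟨p, hpm, hp0⟩ := (mem_chart_iff_isIntegral _ z _).mp g.2
    have hp0' : p.eval₂ f g = 0 := by
      apply Subtype.ext
      have h1 := Polynomial.hom_eval₂ p f (chart A₀.toSubring z).subtype g
      exact h1.trans hp0
    obtain ⟨i, hi1, hi2⟩ := Ideal.exists_coeff_mem_comap_sdiff_comap_of_root_mem_sdiff (f := f)
      hP (show g ∈ (𝔭 : Set _) \ P from ⟨hg, hgP⟩) (map_monic_ne_zero hpm)
      (by rw [hp0']; exact P.zero_mem)
    refine ⟨(p.coeff i : F), (p.coeff i).2, ?_, ?_⟩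
    · intro b hb
      have : b = f (p.coeff i) := Subtype.ext hb
      rw [this]
      exact hi1
    · exact le_antisymm ((ValuationSubring.valuation_le_one_iff _ _).mpr
        (hBV _ (f (p.coeff i)).2)) (not_lt.mp fun hlt => hi2 ((hmP (f (p.coeff i))).mpr hlt))
  obtain ⟨p, hp, rfl⟩ := (mem_polyRing_iff _ z a).mp haA
  -- `p` is primitive
  have hprim : IsPrimPoly A₀ p := by
    refine ⟨hp, ?_⟩
    by_contra hcon
    push Not at hcon
    have hlt : ∀ i, A₀.valuation (p.coeff i) < 1 := fun i =>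
      lt_of_le_of_ne ((A₀.valuation_le_one_iff _).mpr (hp i)) (hcon i)
    have hzV : z ∈ V c := (H.coord c).mem
    have : (V c).valuation (aeval z p) < 1 := by
      rw [aeval_eq_sum_range]
      refine Valuation.map_sum_lt _ one_ne_zero fun i _ => ?_
      rw [Algebra.smul_def, map_mul]
      have h1 : (V c).valuation (algebraMap K₀ F (p.coeff i)) < 1 := by
        have h2 := CoordAux.div_mem_of_valuation_lt_one h₀ (hlt i)
        have h3 : p.coeff i = ϖ₀ * (p.coeff i / ϖ₀) := by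
          rw [mul_div_cancel₀ _ h₀.ne_zero]
        rw [h3, map_mul, map_mul]
        exact mul_lt_one_of_nonneg_of_lt_one_left zero_le (H.vert.lt_one c)
          ((ValuationSubring.valuation_le_one_iff _ _).mpr (H.vert.const_mem c _ h2))
      exact mul_lt_one_of_nonneg_of_lt_one_left zero_le h1
        ((ValuationSubring.valuation_le_one_iff _ _).mpr ((V c).pow_mem hzV i))
    rw [haP] at this
    exact lt_irrefl _ this
  have hϖ : ∀ ϖB : chart A₀.toSubring z, (ϖB : F) = algebraMap K₀ F ϖ₀ → ϖB ∈ 𝔭 := by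
    intro ϖB h
    apply hP
    rw [hmP, h]
    exact H.vert.lt_one c
  exact isMaximal_of_isPrimPoly h₀ 𝔭 hϖ p hprim ha𝔭

open Classical in
/-- `locSub`, as a function on all ideals (junk value `⊥`). -/
def finLoc (B : Subring F) (𝔫 : Ideal B) : Subring F :=
  if h : 𝔫.IsPrime then @locSub _ _ B 𝔫 h else ⊥

theorem finLoc_eq (B : Subring F) (𝔫 : Ideal B) [h : 𝔫.IsPrime] : finLoc B 𝔫 = locSub B 𝔫 := by
  rw [finLoc, dif_pos h]

/-- FIN in one chart, on one component. -/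
theorem finite_closedPt_notMem [CharZero K₀] [Finite ι] [Nonempty ι] (H : MChart A₀ ϖ₀ V z)
    (c : ι) {ε : F} (hε : ε ∈ V c) :
    {R | IsClosedPt (algebraMap K₀ F ϖ₀) (chart A₀.toSubring z) R ∧ LeLoc R (V c) ∧
      ε ∉ R}.Finite := by
  have hnoeth : IsNoetherianRing (chart A₀.toSubring z) :=
    isNoetherianRing_chart H.vert.unif₀ H.transc H.vert.finite
  obtain ⟨s, hs, hs1, hsε⟩ := chart_loc H.vert H.coord H.sep (fun c => ⟨_, H.unif c⟩) c ε hε
  set P : Ideal (chart A₀.toSubring z) := finCenter _ (V c) (H.chart_le c) with hPdef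
  set I : Ideal (chart A₀.toSubring z) := P ⊔ Ideal.span {⟨s, hs⟩} with hI
  have hfin : I.minimalPrimes.Finite := Ideal.finite_minimalPrimes_of_isNoetherianRing _ I
  refine (hfin.image (finLoc (chart A₀.toSubring z))).subset ?_
  rintro R ⟨⟨𝔫, hmax, -, rfl⟩, hle, hεR⟩
  have hprime : 𝔫.IsPrime := hmax.isPrime
  -- `P ≤ 𝔫`
  have hP𝔫 : P ≤ 𝔫 := by
    intro b hb
    by_contra hb𝔫
    have hb1 : (V c).valuation (b : F) < 1 := (mem_finCenter (H.chart_le c) b).1 hb
    have hb0 : (b : F) ≠ 0 := by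
      intro h0
      apply hb𝔫
      have : b = 0 := Subtype.ext h0
      rw [this]
      exact 𝔫.zero_mem
    have hinv : (b : F)⁻¹ ∈ locSub (chart A₀.toSubring z) 𝔫 :=
      ⟨1, b, hb𝔫, by rw [inv_mul_cancel₀ hb0]; rfl⟩
    have h2 := (ValuationSubring.valuation_le_one_iff _ _).mpr (hle.1 _ hinv)
    rw [map_inv₀] at h2
    have h0' : 0 < (V c).valuation (b : F) := zero_lt_iff.mpr ((Valuation.ne_zero_iff _).mpr hb0)
    rw [inv_le_one₀ h0'] at h2
    exact absurd hb1 (not_lt.mpr h2)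
  -- `s ∈ 𝔫`
  have hs𝔫 : (⟨s, hs⟩ : chart A₀.toSubring z) ∈ 𝔫 := by
    by_contra hcon
    exact hεR ⟨⟨s * ε, hsε⟩, ⟨s, hs⟩, hcon, mul_comm _ _⟩
  have hI𝔫 : I ≤ 𝔫 := sup_le hP𝔫 ((Ideal.span_singleton_le_iff_mem _).2 hs𝔫)
  obtain ⟨𝔭, h𝔭, h𝔭𝔫⟩ := Ideal.exists_minimalPrimes_le hI𝔫
  have h𝔭prime : 𝔭.IsPrime := h𝔭.1.1
  have h𝔭I : I ≤ 𝔭 := h𝔭.1.2
  have h𝔭max : 𝔭.IsMaximal := isMaximal_of_vert_lt H c 𝔭 (le_sup_left.trans h𝔭I) ⟨s, hs⟩
    (h𝔭I (Ideal.mem_sup_right (Ideal.mem_span_singleton_self _))) hs1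
  have heq : 𝔭 = 𝔫 := h𝔭max.eq_of_le hprime.ne_top h𝔭𝔫
  refine ⟨𝔫, heq ▸ h𝔭, finLoc_eq _ 𝔫⟩

/-- **FIN**, on one component. -/
theorem finite_modelPt_leLoc_notMem [CharZero K₀] [Finite ι] [Nonempty ι]
    (H : MChart A₀ ϖ₀ V z) (c : ι) {ε : F} (hε : ε ∈ V c) :
    {R | IsModelPt A₀ ϖ₀ z R ∧ LeLoc R (V c) ∧ ε ∉ R}.Finite := by
  refine ((finite_closedPt_notMem H c hε).union (finite_closedPt_notMem H.inv c hε)).subset ?_
  rintro R ⟨hR | hR, h1, h2⟩
  · exact Or.inl ⟨hR, h1, h2⟩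
  · exact Or.inr ⟨hR, h1, h2⟩

/-- **FIN**: a function which is integral at all the vertical valuation rings lies in all but finitely many closed
points of the model. -/
theorem finite_modelPt_notMem [CharZero K₀] [Finite ι] [Nonempty ι] (H : MChart A₀ ϖ₀ V z)
    {ε : F} (hε : ∀ c, ε ∈ V c) : {R | IsModelPt A₀ ϖ₀ z R ∧ ε ∉ R}.Finite := by
  refine (Set.finite_iUnion fun c => finite_modelPt_leLoc_notMem H c (hε c)).subset ?_
  rintro R ⟨hR, h2⟩
  have hb := IsModelPt.ptBaseM H hR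
  obtain ⟨c, hc⟩ : ∃ c, LeLoc R (V c) := by
    by_contra hcon
    push Not at hcon
    exact hb.not_all_away fun c => (hb.leLoc_or_away c).resolve_left (hcon c)
  exact Set.mem_iUnion.2 ⟨c, hR, hc, h2⟩

end Fermat.Agent.S43.E0.O

end
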