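/-
Row 37 (S43), block E0, node (O) / INST (helper97): THE HUB FOR EVERY ODD PRIME `q`, level `M q`, `4 ∣ M`, over the
inertia field `K0 A`, in the shape asked by helper19 (report #1681):  `H : LQ ..`, `E : Eta ..`, and the dichotomy
`(x ∈ R ∧ y ∈ R) ∨ Away R (V 0) ∨ Away R (V 1)` at every closed point of the model, `V = VV (A0 A) hc`.
`q ≥ 5`: coordinate `j`;  `q = 3`: coordinate `h₂` (helper103's `Three/`).
-/
import Fermat.Agent.S43.E0.Three.Inst

set_option autoImplicit false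
set_option linter.unusedSectionVars false

noncomputable section

namespace Fermat.Agent.S43.E0.O

open ModularCurve AlgebraicCurve Fermat.Agent.S24 Fermat.Agent.S18 Fermat.Agent.S36.Mod
  Fermat.Agent.BAD.LevelQ Fermat.Agent.BAD.LevelQ.Mod Fermat.Agent.Lib.EtaUnit
  Fermat.Agent.Lib.InertiaField Fermat.Agent.S36.BP Fermat.Agent.S44.X Fermat.Agent.S44.X.Model
  Fermat.Agent.S28.Export Fermat.Agent.Lib.Hauptmodul Fermat.Agent.S44.Depth.Inst

/-- **What (O) uses about the model of level `M q` over `A0 A`.** -/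
def HubO (A : ValuationSubring S44.Qb) [IsDiscreteValuationRing (A0 A)] (M q : ℕ) [NeZero M]
    [NeZero q] (hc : M.Coprime q) : Prop :=
  ∃ (x' : FK (K0 A) M) (γ : FK (K0 A) M →+* FK (K0 A) M) (x y : FK (K0 A) (M * q)),
    LQ (A0 A) (q : K0 A) q (al (K0 A) M q) (be (K0 A) M q) (ww (K0 A) hc) γ (Og (A0 A) M)
      (VV (A0 A) hc) x' ∧
    Eta (algebraMap (K0 A) (FK (K0 A) (M * q)) (q : K0 A)) (VV (A0 A) hc) x y ∧
    (∀ R, IsModelPt (A0 A) (q : K0 A) (xx (al (K0 A) M q) (be (K0 A) M q) x') R →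
      FinAt (A0 A) R) ∧
    ∀ R, IsModelPt (A0 A) (q : K0 A) (xx (al (K0 A) M q) (be (K0 A) M q) x') R →
      (x ∈ R ∧ y ∈ R) ∨ Away R (VV (A0 A) hc 0) ∨ Away R (VV (A0 A) hc 1)

variable {A : ValuationSubring S44.Qb} [IsDiscreteValuationRing (A0 A)] {M q : ℕ} [NeZero M]
  [NeZero q]

theorem hubO_five (hq : q.Prime) (h5 : 5 ≤ q) (h4 : 4 ∣ M) (hc : M.Coprime q)
    (hA : A.LiesOverPrime q) : HubO A M q hc := by
  have hq4 : Nat.Coprime q 4 := by
    have : Nat.Coprime q (2 ^ 2) := Nat.Coprime.pow_right 2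
      ((Nat.coprime_primes hq Nat.prime_two).2 (by omega))
    simpa using this
  have hN : 4 * q ∣ M * q := Nat.mul_dvd_mul_right h4 q
  obtain ⟨D, -, hDbar⟩ := S34.Nodal.Inst.Base.exists_baseData_j M q hq h5
  obtain ⟨γ₀, -, H⟩ := lq_inertia A hq hA hc D (beInt_j D hDbar)
  rw [xK_eq_jK (K0 A) hDbar] at H
  obtain ⟨c, C⟩ := exists_cuspQ H
  have E := etaW1 isW1_G4 hq4 h4 hc hN (A₀ := A0 A) (K := K0 A)
  have hx := x_mem_ch₁ isW1_G4 hq4 h4 hc hN H
  have hy := y_mem_ch₁ isW1_G4 hq4 h4 hc hN H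
  have hac := isAlgClosed_residueField_A0 A q hq hA
  have E' : Eta (algebraMap (K0 A) (FK (K0 A) (M * q)) (q : K0 A)) (VV (A0 A) hc)
      (unitK isW1_G4 q (M * q) hq4 hN (K0 A)) (yK isW1_G4 hq4 hN (K0 A)) := by
    rw [map_natCast]
    exact E
  refine ⟨_, _, _, _, H, E', nodeFinD q A hq hA (M * q) _ _ H.mChart, fun R hR => ?_⟩
  rcases H.cusp_or hac C hR with h | ⟨-, h⟩
  · exact Or.inl ⟨h _ hx, h _ hy⟩
  · exact Or.inr h

theorem hubO_three (h4 : 4 ∣ M) (hc : M.Coprime 3) (hA : A.LiesOverPrime 3) : HubO A M 3 hc := by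
  have hp : Nat.Prime 3 := Nat.prime_three
  have hp4 : Nat.Coprime 3 4 := by norm_num
  have hN : 4 * 3 ∣ M * 3 := Nat.mul_dvd_mul_right h4 3
  have h2 : 2 ∣ M := Dvd.dvd.trans (by norm_num) h4
  obtain ⟨D, hX, hDbar⟩ := S34.Nodal.Inst.Base.exists_baseData_h2 M h2
  have hB : S34.Nodal.Inst.BaseOK M 3 (D.xK Kbar) := by
    rw [hDbar]
    exact S34.Nodal.Inst.Ord.baseOK_h2 hp h2 (by norm_num)
  obtain ⟨γ₀, -, H⟩ := lq_inertia A hp hA hc D (beInt_of_baseOK D hB)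
  have hj := Three.jK_mul_xK (K0 A) hX
  have h256 : (A0 A).valuation (256 : K0 A) = 1 := Three.val_256 (by simpa using H.char)
  obtain ⟨c', h0, hrel⟩ := exists_rel_j (K := K0 A) (M := M) hp
  have C := Three.cuspQ_j H (a := 256) ((ValuationSubring.valuation_le_one_iff _ _).1 h256.le)
    (by rw [map_ofNat, map_ofNat]) hj (fun a b => intCast_mem (A0 A) _)
    (by rw [h0]; simp) hrel
  have E := etaW1 isW1_G4 hp4 h4 hc hN (A₀ := A0 A) (K := K0 A)
  have hac := isAlgClosed_residueField_A0 A 3 hp hA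
  have E' : Eta (algebraMap (K0 A) (FK (K0 A) (M * 3)) ((3 : ℕ) : K0 A)) (VV (A0 A) hc)
      (unitK isW1_G4 3 (M * 3) hp4 hN (K0 A)) (yK isW1_G4 hp4 hN (K0 A)) := by
    rw [map_natCast]
    exact E
  have CD := Three.cuspDich hac H h256 hj C (Three.x_mem_VV isW1_G4 hp4 h4 hc hN)
    (Three.y_mem_VV isW1_G4 hp4 h4 hc hN) (Three.x_mem_top isW1_G4 hp4 hN)
    (Three.y_mem_top isW1_G4 hp4 hN)
  refine ⟨_, _, _, _, H, E', nodeFinD 3 A hp hA (M * 3) _ _ H.mChart, fun R hR => ?_⟩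
  rcases CD R hR with ⟨-, h1, h2⟩ | ⟨-, h⟩
  · exact Or.inl ⟨h1, h2⟩
  · exact Or.inr h

/-- **The hub for every odd prime.** -/
theorem hubO (hq : q.Prime) (hq2 : q ≠ 2) (h4 : 4 ∣ M) (hc : M.Coprime q)
    (hA : A.LiesOverPrime q) : HubO A M q hc := by
  by_cases h3 : q = 3
  · subst h3
    exact hubO_three h4 hc hA
  · refine hubO_five hq ?_ h4 hc hA
    have h2 := hq.two_le
    by_contra hlt
    have : q = 4 := by omega
    subst this
    exact absurd hq (by norm_num)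

end Fermat.Agent.S43.E0.O

end
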