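/-
Row 37 (S43), block E0, sub-block (O), leaf SPAN (helper197): the abstract half (Mathlib only).

`v` a valuation on a field, `γ = v ϖ`, `0 < γ < 1`, `e > 0`.  If every term `t i` (`i < e`) is zero or
has value `γ ^ (e k + i)`, the nonzero terms have pairwise distinct values and `v (∑ t i)` is the
maximum of the `v (t i)`.
-/
import Mathlib

set_option autoImplicit false

namespace Fermat.Agent.S43.E0.O

section Max

variable {F Γ : Type*} [Field F] [LinearOrderedCommGroupWithZero Γ] (v : Valuation F Γ)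

theorem span_arith {e i j : ℕ} {k l : ℤ} (hi : i < e) (hj : j < e)
    (h : (e : ℤ) * k + i = e * l + j) : i = j := by
  have h1 : (e : ℤ) * (k - l) = j - i := by linarith
  have h2 : k - l = 0 := by
    by_contra hne
    rcases lt_or_gt_of_ne hne with hlt | hgt
    · have : (e : ℤ) * (k - l) ≤ e * (-1) :=
        mul_le_mul_of_nonneg_left (by omega) (Int.natCast_nonneg e)
      omega
    · have : (e : ℤ) * 1 ≤ e * (k - l) :=
        mul_le_mul_of_nonneg_left (by omega) (Int.natCast_nonneg e)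
      omega
  rw [h2, mul_zero] at h1
  omega

/-- **distinct values ⟹ maximum** -/
theorem val_term_le_val_sum_of_zpow {γ : Γ} (h0 : 0 < γ) (h1 : γ < 1) {e : ℕ} (t : ℕ → F)
    (ht : ∀ i < e, t i = 0 ∨ ∃ k : ℤ, v (t i) = γ ^ ((e : ℤ) * k + i)) {i : ℕ} (hi : i < e) :
    v (t i) ≤ v (∑ j ∈ Finset.range e, t j) := by
  classical
  obtain ⟨j, hj, hmax⟩ := Finset.exists_max_image (Finset.range e) (fun j => v (t j))
    ⟨i, Finset.mem_range.2 hi⟩
  have hje := Finset.mem_range.1 hj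
  by_cases hj0 : t j = 0
  · have := hmax i (Finset.mem_range.2 hi)
    rw [hj0, map_zero] at this
    exact this.trans zero_le
  have hlt : ∀ l ∈ Finset.range e \ {j}, v (t l) < v (t j) := by
    intro l hl
    rw [Finset.mem_sdiff, Finset.mem_singleton] at hl
    refine lt_of_le_of_ne (hmax l hl.1) fun heq => hl.2 ?_
    have hle := Finset.mem_range.1 hl.1
    obtain ⟨k', hk'⟩ := (ht j hje).resolve_left hj0
    have hl0 : t l ≠ 0 := by
      intro h
      rw [h, map_zero] at heq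
      exact hj0 ((map_eq_zero v).1 heq.symm)
    obtain ⟨k, hk⟩ := (ht l hle).resolve_left hl0
    rw [hk, hk'] at heq
    exact span_arith hle hje (zpow_right_injective₀ h0 h1.ne heq)
  rw [Valuation.map_sum_eq_of_lt v hj hlt]
  exact hmax i (Finset.mem_range.2 hi)

/-- The consequence used by SPAN: if the sum has value `< 1`, the exponents are positive. -/
theorem zpow_exponent_of_sum_lt_one {γ : Γ} (h0 : 0 < γ) (h1 : γ < 1) {e : ℕ} (t : ℕ → F)
    (ht : ∀ i < e, t i = 0 ∨ ∃ k : ℤ, v (t i) = γ ^ ((e : ℤ) * k + i))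
    (hs : v (∑ j ∈ Finset.range e, t j) < 1) {i : ℕ} (hi : i < e) {k : ℤ}
    (hk : v (t i) = γ ^ ((e : ℤ) * k + i)) : 0 < (e : ℤ) * k + i := by
  have h2 : v (t i) < 1 := lt_of_le_of_lt (val_term_le_val_sum_of_zpow v h0 h1 t ht hi) hs
  rw [hk] at h2
  by_contra hcon
  have h3 : (1 : Γ) ≤ γ ^ ((e : ℤ) * k + i) := by
    have : γ ^ (0 : ℤ) ≤ γ ^ ((e : ℤ) * k + i) :=
      (zpow_le_zpow_iff_right_of_lt_one₀ h0 h1).2 (not_lt.1 hcon)
    rwa [zpow_zero] at this
  exact absurd h2 (not_lt.2 h3)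

end Max

section VS

variable {F : Type*} [Field F]

theorem valuation_lt_one_iff_inv_notMem (G : ValuationSubring F) {x : F} (hx : x ≠ 0) :
    G.valuation x < 1 ↔ x⁻¹ ∉ G := by
  rw [← G.valuation_le_one_iff, map_inv₀, not_le,
    one_lt_inv₀ (zero_lt_iff.2 ((map_ne_zero G.valuation).2 hx))]

theorem valuation_eq_one_of_mem_of_inv_mem (G : ValuationSubring F) {x : F} (hx : x ≠ 0)
    (h1 : x ∈ G) (h2 : x⁻¹ ∈ G) : G.valuation x = 1 := by
  have a1 := (G.valuation_le_one_iff x).2 h1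
  have a2 := (G.valuation_le_one_iff x⁻¹).2 h2
  rw [map_inv₀] at a2
  have hv : 0 < G.valuation x := zero_lt_iff.2 ((map_ne_zero G.valuation).2 hx)
  exact le_antisymm a1 ((inv_le_one₀ hv).1 a2)

end VS

section Core

variable {Kb Fb F0 : Type*} [Field Kb] [Field Fb] [Field F0] [Algebra Kb Fb]
  {A : ValuationSubring Kb} {G : ValuationSubring Fb}

/-- constants of the same `A`-value have the same `G`-value -/
theorem valuation_const_eq (P1 : ∀ c : Kb, algebraMap Kb Fb c ∈ G ↔ c ∈ A) {c d : Kb} (hd : d ≠ 0)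
    (h : A.valuation c = A.valuation d) :
    G.valuation (algebraMap Kb Fb c) = G.valuation (algebraMap Kb Fb d) := by
  have hc : c ≠ 0 := by
    intro h0
    rw [h0, map_zero] at h
    exact hd ((map_eq_zero A.valuation).1 h.symm)
  have hvd : A.valuation d ≠ 0 := (map_ne_zero A.valuation).2 hd
  have h1 : c / d ∈ A := by
    rw [← A.valuation_le_one_iff, map_div₀, h, div_self hvd]
  have h2 : (c / d)⁻¹ ∈ A := by
    rw [← A.valuation_le_one_iff, map_inv₀, map_div₀, h, div_self hvd, inv_one]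
  have h3 : G.valuation (algebraMap Kb Fb (c / d)) = 1 := by
    apply valuation_eq_one_of_mem_of_inv_mem G
    · exact (map_ne_zero _).2 (div_ne_zero hc hd)
    · exact (P1 _).2 h1
    · rw [← map_inv₀]
      exact (P1 _).2 h2
  have hGd : G.valuation (algebraMap Kb Fb d) ≠ 0 :=
    (map_ne_zero G.valuation).2 ((map_ne_zero _).2 hd)
  rw [map_div₀, map_div₀, div_eq_one_iff_eq hGd] at h3
  exact h3

/-- **The core of SPAN.** -/
theorem span_core (P1 : ∀ c : Kb, algebraMap Kb Fb c ∈ G ↔ c ∈ A) (bc : F0 →+* Fb) {qq ϖ : Kb}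
    (P2 : ∀ f : F0, f ≠ 0 → ∃ k : ℤ, G.valuation (bc f) = G.valuation (algebraMap Kb Fb qq) ^ k)
    (hqq : qq ≠ 0) (hq1 : A.valuation qq < 1) {e : ℕ} (he : 0 < e)
    (hϖ : A.valuation ϖ ^ e = A.valuation qq) (f : ℕ → F0)
    (hs : G.valuation (∑ i ∈ Finset.range e, algebraMap Kb Fb (ϖ ^ i) * bc (f i)) < 1) :
    (∀ i, 0 < i → i < e → bc (f i) ∈ G) ∧ bc (f 0) / algebraMap Kb Fb qq ∈ G := by
  set γ := G.valuation (algebraMap Kb Fb ϖ) with hγ
  have hϖ0 : ϖ ≠ 0 := by
    rintro rfl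
    rw [map_zero, zero_pow he.ne'] at hϖ
    exact hqq ((map_eq_zero A.valuation).1 hϖ.symm)
  have h0 : 0 < γ := zero_lt_iff.2 ((map_ne_zero G.valuation).2 ((map_ne_zero _).2 hϖ0))
  have hγe : γ ^ e = G.valuation (algebraMap Kb Fb qq) := by
    rw [hγ, ← map_pow, ← map_pow]
    exact valuation_const_eq P1 hqq (by rw [map_pow, hϖ])
  have h1 : γ < 1 := by
    rw [hγ, valuation_lt_one_iff_inv_notMem G ((map_ne_zero _).2 hϖ0), ← map_inv₀, P1,
      ← valuation_lt_one_iff_inv_notMem A hϖ0]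
    by_contra hcon
    have : 1 ≤ A.valuation ϖ ^ e := one_le_pow₀ (not_lt.1 hcon)
    rw [hϖ] at this
    exact absurd hq1 (not_lt.2 this)
  have hterm : ∀ i, ∀ k : ℤ, G.valuation (bc (f i)) = G.valuation (algebraMap Kb Fb qq) ^ k →
      G.valuation (algebraMap Kb Fb (ϖ ^ i) * bc (f i)) = γ ^ ((e : ℤ) * k + i) := by
    intro i k hk
    rw [map_mul, hk, ← hγe, map_pow, map_pow, ← hγ, zpow_add₀ h0.ne', zpow_mul, zpow_natCast,
      zpow_natCast, mul_comm]
  have ht : ∀ i < e, algebraMap Kb Fb (ϖ ^ i) * bc (f i) = 0 ∨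
      ∃ k : ℤ, G.valuation (algebraMap Kb Fb (ϖ ^ i) * bc (f i)) = γ ^ ((e : ℤ) * k + i) := by
    intro i _
    by_cases hf : f i = 0
    · left
      rw [hf, map_zero, mul_zero]
    · right
      obtain ⟨k, hk⟩ := P2 (f i) hf
      exact ⟨k, hterm i k hk⟩
  have hpos : ∀ i < e, ∀ k : ℤ, G.valuation (bc (f i)) = G.valuation (algebraMap Kb Fb qq) ^ k →
      0 < (e : ℤ) * k + i := fun i hi k hk =>
    zpow_exponent_of_sum_lt_one G.valuation h0 h1 _ ht hs hi (hterm i k hk)
  have hγe1 : γ ^ e ≤ 1 := pow_le_one₀ h0.le h1.le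
  have hγe0 : 0 < γ ^ e := pow_pos h0 e
  constructor
  · intro i hi0 hie
    by_cases hf : f i = 0
    · rw [hf, map_zero]
      exact G.zero_mem
    obtain ⟨k, hk⟩ := P2 (f i) hf
    have h2 := hpos i hie k hk
    have hk0 : 0 ≤ k := by
      by_contra hneg
      have h5 : (e : ℤ) * k ≤ e * (-1) :=
        mul_le_mul_of_nonneg_left (by omega) (Int.natCast_nonneg e)
      omega
    rw [← G.valuation_le_one_iff, hk, ← hγe]
    exact zpow_le_one₀ hγe0 hγe1 hk0
  · by_cases hf : f 0 = 0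
    · rw [hf, map_zero, zero_div]
      exact G.zero_mem
    obtain ⟨k, hk⟩ := P2 (f 0) hf
    have h2 := hpos 0 he k hk
    have hk0 : 0 ≤ k - 1 := by
      by_contra hneg
      have h5 : (e : ℤ) * k ≤ e * 0 :=
        mul_le_mul_of_nonneg_left (by omega) (Int.natCast_nonneg e)
      push_cast at h2
      omega
    rw [← G.valuation_le_one_iff, map_div₀, hk, ← hγe, div_eq_mul_inv, ← zpow_sub_one₀ hγe0.ne']
    exact zpow_le_one₀ hγe0 hγe1 hk0

end Core

end Fermat.Agent.S43.E0.O
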