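/-
Row 37 (S43), block E0, sub-block (O), leaf SPAN (helper197).

A function `w ∈ FN (M q)` (over `ℚ̄`) which is `≡ 1` at the two Gauss valuations can be written
`w - 1 = ∑ c_i · bc(ε_i)`, `c_i ∈ m_A`, `ε_i ∈ FK (K0 A) (M q)` integral at both vertical valuations.

Proof.  `FN` is spanned over `ℚ̄` by `FK (K0 A)` (`BAD.Bridge.horDiv_span`); the finitely many constants
lie in a totally ramified extension `K0(ϖ)` of degree `e` (`Lib/InertiaField/TotRam`), so
`w - 1 = ∑_{i<e} ϖ^i bc(f_i)`.  The values of the terms are pairwise distinct (`SpanAbs.span_core`).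
-/
import Fermat.Agent.S43.E0.O.SpanAbs
import Fermat.Agent.S44.X.Model.GaussFN
import Fermat.Agent.S44.X.Cover.Hecke.Gauss
import Fermat.Agent.BAD.Bridge.HorDiv
import Fermat.Agent.BAD.Bridge.BaseHyp
import Fermat.Agent.BAD.LevelQ.Mod.Gauss
import Fermat.Agent.Lib.InertiaField.TotRam.Conseq

set_option autoImplicit false

noncomputable section

namespace Fermat.Agent.S43.E0.O

open ModularCurve AlgebraicCurve Fermat.Agent.S24 Fermat.Agent.GAL Fermat.Agent.GAL.E
  Fermat.Agent.C1 Fermat.Agent.Lib.InertiaField Fermat.Agent.S44.X.Cover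
  Fermat.Agent.BAD.LevelQ.Mod Fermat.Agent.BAD.Bridge

variable {A : ValuationSubring Kbar}

/-- (P1) the constants of the Gauss ring -/
theorem const_mem_gauss_iff {L : ℕ} {G : ValuationSubring (FN L)} (hG : IsGaussFN A L G)
    (c : Kbar) : algebraMap Kbar (FN L) c ∈ G ↔ c ∈ A := by
  rw [hG]
  constructor
  · intro h
    apply Hecke.IntS.mem_of_const
    rw [← C1.RedField.coe_algebraMap (N := L)]
    exact h
  · intro h
    have := Hecke.IntS.const h
    rw [← C1.RedField.coe_algebraMap (N := L)] at this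
    exact this

theorem bcX_natCast_const (L q : ℕ) :
    bcX (K0 A) L (algebraMap (K0 A) (FK (K0 A) L) (q : K0 A)) =
      algebraMap Kbar (FN L) (q : Kbar) := by
  rw [map_natCast, map_natCast, map_natCast]

/-- (P2) the value group of the Gauss valuation on `FK (K0 A) L` is generated by the value of `q` -/
theorem exists_zpow_gauss {q : ℕ} (hq : q.Prime) (hA : A.LiesOverPrime q)
    [IsDiscreteValuationRing (A0 A)] {L : ℕ} {G : ValuationSubring (FN L)}
    (hG : IsGaussFN A L G) (f : FK (K0 A) L) (hf : f ≠ 0) :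
    ∃ k : ℤ, G.valuation (bcX (K0 A) L f) = G.valuation (algebraMap Kbar (FN L) (q : Kbar)) ^ k := by
  have hgs := isGauss_Og (isUnif_A0 A q hq hA) L
  obtain ⟨k, h1, h2⟩ := hgs.unif.exists_zpow f hf
  refine ⟨k, ?_⟩
  have hq0 : algebraMap (K0 A) (FK (K0 A) L) (q : K0 A) ≠ 0 := by
    rw [map_natCast]
    exact_mod_cast hq.ne_zero
  have hφ : A.comap (algebraMap (K0 A) Kbar) = A0 A := rfl
  have e1 := (S44.X.Model.mem_val_iff_bcX_mem hφ hG _).1 h1
  have e2 := (S44.X.Model.mem_val_iff_bcX_mem hφ hG _).1 h2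
  rw [map_inv₀] at e2
  have hne : bcX (K0 A) L (f / algebraMap (K0 A) (FK (K0 A) L) (q : K0 A) ^ k) ≠ 0 :=
    (map_ne_zero _).2 (div_ne_zero hf (zpow_ne_zero k hq0))
  have e3 := valuation_eq_one_of_mem_of_inv_mem G hne e1 e2
  rw [map_div₀, map_zpow₀, bcX_natCast_const, map_div₀, map_zpow₀] at e3
  have hq0' : G.valuation (algebraMap Kbar (FN L) (q : Kbar)) ^ k ≠ 0 := by
    apply zpow_ne_zero
    rw [map_ne_zero, map_natCast]
    exact_mod_cast hq.ne_zero
  exact (div_eq_one_iff_eq hq0').1 e3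

/-- `w ≡ 1` in the sense of `C1.Cong1` means `v(w - 1) < 1`. -/
theorem valuation_sub_one_lt_of_cong1 {L : ℕ} {G : ValuationSubring (FN L)}
    (hG : IsGaussFN A L G) {w : FN L} (h : Cong1 A L w) : G.valuation (w - 1) < 1 := by
  by_cases h0 : w - 1 = 0
  · rw [h0, map_zero]
    exact zero_lt_one
  rw [valuation_lt_one_iff_inv_notMem G h0, hG]
  rintro ⟨P', Q', hQ', h'⟩
  obtain ⟨P, Q, hP, hQ, hPQ, hQ0, rfl⟩ := h
  have hQne : incl A Q ≠ 0 := C1.RedField.incl_ne_zero hQ0
  set x : LaurentSeries Kbar := incl A P / incl A Q - 1 with hx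
  have hx0 : x ≠ 0 := fun h => h0 (Subtype.ext h)
  have h1 : x⁻¹ * incl A Q' = incl A P' := h'
  have h2 : x * incl A Q = incl A P - incl A Q := by
    rw [hx, sub_mul, div_mul_cancel₀ _ hQne, one_mul]
  have h3 : incl A (Q' * Q) = incl A (P' * (P - Q)) := by
    rw [map_mul, map_mul, map_sub, ← h2, ← h1]
    field_simp
  have h4 := congrArg (red A) (incl_injective A h3)
  rw [map_mul, map_mul, map_sub, hPQ, sub_self, mul_zero] at h4
  exact mul_ne_zero hQ' hQ0 h4

/-- **Expansion** of a function over `ℚ̄` in powers of a uniformiser of a finite extension of the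
inertia field. -/
theorem exists_expansion {q : ℕ} (hq : q.Prime) (hA : A.LiesOverPrime q) (L : ℕ) (x : FN L) :
    ∃ (ϖ : Kbar) (e : ℕ) (f : ℕ → FK (K0 A) L), IsTotUnif A q ϖ e ∧
      x = ∑ i ∈ Finset.range e, algebraMap Kbar (FN L) (ϖ ^ i) * bcX (K0 A) L (f i) := by
  classical
  have hx : x ∈ @Submodule.span Kbar (FN L) _ _ Algebra.toModule (Set.range (bc A L)) := by
    rw [horDiv_span]
    trivial
  let _ : Module Kbar (FN L) := Algebra.toModule
  obtain ⟨c, hc⟩ := (Finsupp.mem_span_range_iff_exists_finsupp (R := Kbar) (M := FN L)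
    (α := FK (K0 A) L) (v := bc A L) (x := x)).1 hx
  obtain ⟨ϖ, e, h, hst⟩ := exists_isTotUnif hq hA (S := ((c.support.image c : Finset Kbar) : Set Kbar))
    (Finset.finite_toSet _)
  have hmem : ∀ g, c g ∈ adj A {ϖ} := by
    intro g
    rw [mem_adj_singleton]
    intro σ hσ hϖ
    by_cases hg : g ∈ c.support
    · exact (hst σ hσ).1 hϖ (c g) (Finset.mem_coe.2 (Finset.mem_image_of_mem c hg))
    · rw [Finsupp.notMem_support_iff.1 hg, map_zero]
  choose a ha hsum using fun g => h.expand_K0 hq hA (hmem g)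
  refine ⟨ϖ, e, fun i => ∑ g ∈ c.support,
    algebraMap (K0 A) (FK (K0 A) L) ⟨a g i, ha g i⟩ * g, h, ?_⟩
  rw [← hc, Finsupp.sum]
  have e1 : ∀ i, algebraMap Kbar (FN L) (ϖ ^ i) * bcX (K0 A) L (∑ g ∈ c.support,
      algebraMap (K0 A) (FK (K0 A) L) ⟨a g i, ha g i⟩ * g) =
      ∑ g ∈ c.support, algebraMap Kbar (FN L) (a g i * ϖ ^ i) * bc A L g := by
    intro i
    rw [map_sum, Finset.mul_sum]
    refine Finset.sum_congr rfl fun g _ => ?_
    rw [map_mul]
    have : bcX (K0 A) L (algebraMap (K0 A) (FK (K0 A) L) ⟨a g i, ha g i⟩) =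
        algebraMap Kbar (FN L) (a g i) := bc_algebraMap A L ⟨a g i, ha g i⟩
    rw [this, map_mul]
    have : bcX (K0 A) L g = bc A L g := rfl
    rw [this]
    ring
  simp only [e1]
  rw [Finset.sum_comm]
  refine Finset.sum_congr rfl fun g _ => ?_
  rw [← Finset.sum_mul, ← map_sum, ← hsum g]
  exact Algebra.smul_def _ _

variable {M q : ℕ} [NeZero M] [NeZero q]

/-- **SPAN.** -/
theorem exists_span (hq : q.Prime) (hc : M.Coprime q) (D : C1.ALData M q)
    (hA : A.LiesOverPrime q) [IsDiscreteValuationRing (A0 A)] (w : FN (M * q))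
    (h1 : Cong1 A (M * q) w) (h2 : Cong1 A (M * q) (D.w w)) :
    ∃ (m : ℕ) (c : Fin m → Kbar) (eps : Fin m → FK (K0 A) (M * q)),
      (∀ i, A.valuation (c i) < 1) ∧ (∀ i k, eps i ∈ VV (A0 A) hc k) ∧
      w - 1 = ∑ i, algebraMap Kbar (FN (M * q)) (c i) * bcX (K0 A) (M * q) (eps i) := by
  set G := Hecke.gaussFN A hq hA (M * q) with hGdef
  have hG : IsGaussFN A (M * q) G := Hecke.isGaussFN_gaussFN hq hA (M * q)
  have hφ : A.comap (algebraMap (K0 A) Kbar) = A0 A := rfl
  obtain ⟨ϖ, e, f, h, hw⟩ := exists_expansion hq hA (M * q) (w - 1)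
  have hqq : (q : Kbar) ≠ 0 := by exact_mod_cast hq.ne_zero
  have hqF : algebraMap Kbar (FN (M * q)) (q : Kbar) ≠ 0 := (map_ne_zero _).2 hqq
  have hq1 : A.valuation (q : Kbar) < 1 := (A.mem_nonunits_iff).mp hA
  have s1 : G.valuation (∑ i ∈ Finset.range e,
      algebraMap Kbar (FN (M * q)) (ϖ ^ i) * bcX (K0 A) (M * q) (f i)) < 1 := by
    rw [← hw]
    exact valuation_sub_one_lt_of_cong1 hG h1
  obtain ⟨a1, a0⟩ := span_core (const_mem_gauss_iff hG) (bcX (K0 A) (M * q))
    (exists_zpow_gauss hq hA hG) hqq hq1 h.pos h.val_pow f s1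
  -- the transform by the Atkin-Lehner involution
  let bc' : FK (K0 A) (M * q) →+* FN (M * q) :=
    (D.w : FN (M * q) →+* FN (M * q)).comp (bcX (K0 A) (M * q))
  have s2 : G.valuation (∑ i ∈ Finset.range e,
      algebraMap Kbar (FN (M * q)) (ϖ ^ i) * bc' (f i)) < 1 := by
    have e1 : D.w w - 1 = ∑ i ∈ Finset.range e,
        algebraMap Kbar (FN (M * q)) (ϖ ^ i) * bc' (f i) := by
      rw [← map_one D.w, ← map_sub, hw, map_sum]
      refine Finset.sum_congr rfl fun i _ => ?_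
      rw [map_mul, D.w.commutes]
      rfl
    rw [← e1]
    exact valuation_sub_one_lt_of_cong1 hG h2
  have P2' : ∀ g : FK (K0 A) (M * q), g ≠ 0 → ∃ k : ℤ, G.valuation (bc' g) =
      G.valuation (algebraMap Kbar (FN (M * q)) (q : Kbar)) ^ k := by
    intro g hg
    have e1 : bc' g = bcX (K0 A) (M * q) (ww (K0 A) hc g) :=
      (S44.X.Model.bcX_ww hq hc D g).symm
    rw [e1]
    exact exists_zpow_gauss hq hA hG _ ((EmbeddingLike.map_ne_zero_iff).2 hg)
  obtain ⟨b1, b0⟩ := span_core (const_mem_gauss_iff hG) bc' P2' hqq hq1 h.pos h.val_pow f s2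
  refine ⟨e, fun i => if (i : ℕ) = 0 then (q : Kbar) else ϖ ^ (i : ℕ),
    fun i => if (i : ℕ) = 0 then f 0 / algebraMap (K0 A) (FK (K0 A) (M * q)) (q : K0 A) else f i,
    ?_, ?_, ?_⟩
  · intro i
    dsimp only
    split_ifs with hi
    · exact hq1
    · rw [map_pow]
      exact pow_lt_one₀ zero_le (h.val_lt_one hA) hi
  · intro i k
    dsimp only
    fin_cases k
    · show _ ∈ VV (A0 A) hc 0
      rw [S44.X.Model.mem_VV_zero_iff_bcX_mem hφ hc hG]
      split_ifs with hi
      · rw [map_div₀, bcX_natCast_const]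
        exact a0
      · exact a1 i (Nat.pos_of_ne_zero hi) i.2
    · show _ ∈ VV (A0 A) hc 1
      rw [S44.X.Model.mem_VV_one_iff_bcX_mem hφ hq hc D hG]
      show D.w (bcX (K0 A) (M * q) _) ∈ G
      split_ifs with hi
      · rw [map_div₀, bcX_natCast_const, map_div₀, D.w.commutes]
        exact b0
      · exact b1 i (Nat.pos_of_ne_zero hi) i.2
  · rw [hw, ← Fin.sum_univ_eq_sum_range
      (fun i => algebraMap Kbar (FN (M * q)) (ϖ ^ i) * bcX (K0 A) (M * q) (f i)) e]
    refine Finset.sum_congr rfl fun i _ => ?_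
    dsimp only
    split_ifs with hi
    · rw [hi, pow_zero, map_one, one_mul, map_div₀, bcX_natCast_const, mul_div_cancel₀ _ hqF]
    · rfl

end Fermat.Agent.S43.E0.O

end
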