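/-
Row 37 (S43), block E0, sub-block (O), leaf ROOT (helper19): local `n`-th roots up to units at EVERY
closed point of the model of level `M q` (hub `LQ`), for a function which is a unit at the two vertical
valuations and whose horizontal divisor is divisible by `n`.

The only input on the crossing points is `hnode`: at a closed point lying on both components the two eta
units `x`, `y` (`x y = q`) are regular.  (`LQ.cusp_or` for `q ≥ 5`, `Q3.cusp_or` for `q = 3`.)
-/
import Fermat.Agent.BAD.LevelQ.Pt.B.Through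
import Fermat.Agent.BAD.LevelQ.Pt.B.Local
import Fermat.Agent.S36.BP.LocalRoot.Abs

set_option autoImplicit false

noncomputable section

namespace Fermat.Agent.S43.E0.O

open Polynomial IntermediateField Fermat.Agent.S18 Fermat.Agent.S36.BP Fermat.Agent.BAD.Model
  Fermat.Agent.BAD.LevelQ

variable {K₀ F' F : Type*} [Field K₀] [Field F'] [Field F] [Algebra K₀ F'] [Algebra K₀ F]
variable {A₀ : ValuationSubring K₀} {q : ℕ} {al be : F' →ₐ[K₀] F} {w : F ≃ₐ[K₀] F}
  {γ : F' →+* F'} {Ow' : ValuationSubring F'} {V : Fin 2 → ValuationSubring F} {x' : F'}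
  {R : Subring F} {x y : F}

/-- one of the components through a closed point is principal. -/
theorem exists_through_princ [CharZero K₀] (hac : IsAlgClosed (IsLocalRing.ResidueField A₀))
    (H : LQ A₀ (q : K₀) q al be w γ Ow' V x') (E : Eta (algebraMap K₀ F (q : K₀)) V x y)
    (hR : IsModelPt A₀ (q : K₀) (xx al be x') R)
    (hnode : (x ∈ R ∧ y ∈ R) ∨ Away R (V 0) ∨ Away R (V 1)) :
    ∃ c, Through R (V c) ∧ Princ R (V c) := by
  have hpt : IsPt A₀ R := hR.isPt H.mChart hac
  have hB : PtBaseM A₀ (q : K₀) V R := hR.ptBaseM H.mChart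
  have hU := H.unif_all
  have hq0 : algebraMap K₀ F (q : K₀) ≠ 0 := loc_unif_ne_zero (hU 0)
  have hqR : algebraMap K₀ F (q : K₀) ∈ R := hpt.const_mem _ H.vert'.unif₀.mem
  have hsm : ∀ c : Fin 2, LeLoc R (V c) → (∀ c', c' ≠ c → Away R (V c')) →
      ∃ c, Through R (V c) ∧ Princ R (V c) := fun c hL hA =>
    ⟨c, H.through hac hR c hL, algebraMap K₀ F (q : K₀), hqR, hq0, H.complete.lt_one c,
      hB.princ_smooth hU c hA⟩
  rcases hB.leLoc_or_away 0 with h0 | a0
  · rcases hB.leLoc_or_away 1 with h1 | a1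
    · rcases hnode with ⟨hx, hy⟩ | a0 | a1
      · have hy0 := loc_ne_zero E.y_unit
        have hy1 : (V 0).valuation y < 1 := by
          have h := H.complete.lt_one 0
          rwa [← E.mul_eq, map_mul, E.x_unit, one_mul] at h
        exact ⟨0, H.through hac hR 0 h0, y, hy, hy0, hy1, hB.princ_zero hU E hx⟩
      · exact hsm 1 h1 (fun c' hc' => by
          have : c' = 0 := by omega
          rw [this]; exact a0)
      · exact hsm 0 h0 (fun c' hc' => by
          have : c' = 1 := by omega
          rw [this]; exact a1)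
    · exact hsm 0 h0 (fun c' hc' => by
        have : c' = 1 := by omega
        rw [this]; exact a1)
  · rcases hB.leLoc_or_away 1 with h1 | a1
    · exact hsm 1 h1 (fun c' hc' => by
        have : c' = 0 := by omega
        rw [this]; exact a0)
    · exact absurd (Fin.forall_fin_two.2 ⟨a0, a1⟩) hB.not_all_away

/-- **ROOT.**  Local `n`-th roots up to units at every closed point of the model. -/
theorem exists_local_root [CharZero K₀] (hac : IsAlgClosed (IsLocalRing.ResidueField A₀))
    (H : LQ A₀ (q : K₀) q al be w γ Ow' V x') (E : Eta (algebraMap K₀ F (q : K₀)) V x y)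
    (hR : IsModelPt A₀ (q : K₀) (xx al be x') R)
    (hnode : (x ∈ R ∧ y ∈ R) ∨ Away R (V 0) ∨ Away R (V 1))
    {n : ℕ} {u : F} (hu : ∀ c, (V c).valuation u = 1) (hd : HorDiv K₀ n u) :
    ∃ g : F, g ≠ 0 ∧ RUnit R (u / g ^ n) := by
  have hpt : IsPt A₀ R := hR.isPt H.mChart hac
  have hB : PtBaseM A₀ (q : K₀) V R := hR.ptBaseM H.mChart
  have hqep : ∀ y : F, (q : F) * y ∈ R → (∀ c, Through R (V c) → y ∈ V c) → y ∈ R := by
    intro y h1 h2
    refine hB.qep y (by rwa [map_natCast]) fun c => ?_
    rcases hB.leLoc_or_away c with hL | hA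
    · exact Or.inl (h2 c (H.through hac hR c hL))
    · exact Or.inr hA
  obtain ⟨g, hg⟩ := LocalRoot.exists_local_root_of H.vert'.unif₀ hpt V
    (exists_through_princ hac H E hR hnode) hqep hu hd
  by_cases hg0 : g = 0
  · subst hg0
    rcases Nat.eq_zero_or_pos n with rfl | hn
    · refine ⟨1, one_ne_zero, ?_⟩
      rw [pow_zero, one_mul] at hg
      rwa [pow_zero, div_one]
    · exact absurd (by rw [zero_pow hn.ne', zero_mul]) hg.1
  refine ⟨g⁻¹, inv_ne_zero hg0, ?_⟩
  have e : u / g⁻¹ ^ n = g ^ n * u := by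
    rw [inv_pow, div_inv_eq_mul, mul_comm]
  rw [e]
  exact hg

end Fermat.Agent.S43.E0.O

end
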