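/-
Row 37 (S43), block E0, sub-block (O) (owner helper19): THE ABSTRACT ASSEMBLY OF (O), with the toric
function `w` over `K = ℚ̄` (no descent of `w` to the inertia field).

`F` = function field over the algebraically closed field `K` (`= ℚ̄`), `A` a valuation ring of `K`,
`F₀` = the function field over the inertia field, `j : F₀ → F` the base change.
`Pts` = the closed points of a model (subrings of `F₀`), `Int` = the functions which are integral at
the vertical valuations.

Inputs: (CTR) every place of `F` is centred at a point; (FIN) a vertically integral function is regular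
at all but finitely many points; (SL) `u` can be normalised to `1` at finitely many points;
(SPAN) `w - 1 = ∑ cᵢ εᵢ`, `cᵢ ∈ 𝔪_A`, `εᵢ` vertically integral.  Output: `e_n([u], [w]) = 1`.
-/
import Fermat.Agent.S43.E0.O.Top

set_option autoImplicit false

noncomputable section

namespace Fermat.Agent.S43.E0.O

open AlgebraicCurve Fermat.Agent.S24.FF Fermat.Agent.S27 Fermat.Agent.S19.Weil Fermat.Agent.S36.BP

variable {K F : Type*} [Field K] [Field F] [Algebra K F]
variable {F₀ : Type*} [Field F₀]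

theorem isVal_finset_sum {v : Place K F} {ι : Type*} (s : Finset ι) (f : ι → F) (c : ι → K)
    (h : ∀ i ∈ s, IsVal v (f i) (c i)) : IsVal v (∑ i ∈ s, f i) (∑ i ∈ s, c i) := by
  classical
  induction s using Finset.induction_on with
  | empty =>
    rw [Finset.sum_empty, Finset.sum_empty]
    exact Or.inl (map_zero _).symm
  | insert i s hi ih =>
    rw [Finset.sum_insert hi, Finset.sum_insert hi]
    exact (h i (Finset.mem_insert_self i s)).add (ih fun j hj => h j (Finset.mem_insert_of_mem hj))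

variable [IsAlgClosed K] [IsFF1 K F]

/-- a function with a value in `1 + 𝔪_A` is a unit at the place. -/
theorem ord_eq_zero_of_isVal_isU1 {A : ValuationSubring K} {v : Place K F} {f : F} {c : K}
    (h : IsVal v f c) (hc : IsU1 A c) : v.ord f = 0 ∧ IsU1 A (ev v f) := by
  have he : ev v f = c := ev_eq_of_isVal h
  refine ⟨?_, he ▸ hc⟩
  have h0 := h.ord_nonneg
  by_contra hne
  have hpos : 0 < v.ord f := lt_of_le_of_ne h0 (Ne.symm hne)
  have : ev v f = 0 := (ev_eq_zero_iff h0).2 (Or.inr hpos)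
  exact hc.ne_zero (he ▸ this)

variable [CharZero K] [NonConst K F]

/-- **(O), abstract form, `w` over `K`.** -/
theorem orth_abs {n : ℕ} (hn : 0 < n) (A : ValuationSubring K) (hnA : A.valuation (n : K) = 1)
    (j : F₀ →+* F) (Pts : Set (Subring F₀)) (Int : Set F₀)
    (hCTR : ∀ v : Place K F, ∃ R ∈ Pts, Cen A j v R)
    (hFIN : ∀ ε ∈ Int, {R | R ∈ Pts ∧ ε ∉ R}.Finite)
    {x y : Pic0 K F} (a : TorsRep n x) (b : TorsRep n y) (u : F₀) (hu : a.f = j u)
    (hSL : ∀ Z : Set (Subring F₀), Z ⊆ Pts → Z.Finite →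
      ∃ f : F₀, f ≠ 0 ∧ ∀ R ∈ Z, f ^ n * u - 1 ∈ rad R)
    {m : ℕ} (c : Fin m → K) (ε : Fin m → F₀) (hc : ∀ i, A.valuation (c i) < 1)
    (hε : ∀ i, ε i ∈ Int)
    (hSPAN : b.f - 1 = ∑ i, algebraMap K F (c i) * j (ε i)) :
    weil n x y = 1 := by
  set Z : Set (Subring F₀) := ⋃ i, {R | R ∈ Pts ∧ ε i ∉ R} with hZ
  have hZfin : Z.Finite := Set.finite_iUnion fun i => hFIN _ (hε i)
  have hZPt : Z ⊆ Pts := by
    intro R hR
    obtain ⟨i, hi⟩ := Set.mem_iUnion.1 hR
    exact hi.1
  obtain ⟨h, hh0, hh⟩ := hSL Z hZPt hZfin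
  refine weil_eq_one_of_tube hn A hnA a b {v | ∃ R ∈ Z, Cen A j v R} (j h)
    ((map_ne_zero j).2 hh0) ?_ ?_
  · rintro v ⟨R, hRZ, hR⟩
    have := hR.isU1 (hh R hRZ)
    rwa [map_mul, map_pow, ← hu] at this
  · intro v hv
    obtain ⟨R, hRPt, hR⟩ := hCTR v
    have hRZ : R ∉ Z := fun h' => hv ⟨R, h', hR⟩
    have hεR : ∀ i, ε i ∈ R := by
      intro i
      by_contra hi
      exact hRZ (Set.mem_iUnion.2 ⟨i, hRPt, hi⟩)
    have h1 : IsVal v (∑ i, algebraMap K F (c i) * j (ε i)) (∑ i, c i * ev v (j (ε i))) :=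
      isVal_finset_sum _ _ _ fun i _ => IsVal.mul (Or.inl rfl) (isVal_ev (hR.1 _ (hεR i)).1)
    have h2 : IsVal v (∑ i, algebraMap K F (c i) * j (ε i) + algebraMap K F 1)
        (∑ i, c i * ev v (j (ε i)) + 1) := h1.add (Or.inl rfl)
    rw [← hSPAN, map_one, sub_add_cancel] at h2
    refine ord_eq_zero_of_isVal_isU1 h2 ?_
    rw [IsU1, add_sub_cancel_right]
    refine Valuation.map_sum_lt _ one_ne_zero fun i _ => ?_
    rw [map_mul]
    exact mul_lt_one_of_lt_of_le (hc i) ((A.valuation_le_one_iff _).2 (hR.1 _ (hεR i)).2)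

end Fermat.Agent.S43.E0.O

end
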