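/-
Row 37 (S43), block E0, sub-block (O) (owner helper19): **STATEMENT (O) IS PROVED**, at every level `M q`
(`q` an odd prime, `q ∤ M`, no other hypothesis on `M`), every exponent `n` prime to `6 q`:

an `n`-torsion class of `J₀(M q)` represented by a function over the inertia field `K0 A` which is a unit at the two
vertical valuations is Weil-orthogonal to the toric part `IsTorJ D A n`.

Assembly: `Orth.orthL` (helper5; = `orth_abs` + CTR + FIN + MOVE + ROOT + hub for every odd `q`),
`exists_span` (helper197), `Pull.stmtO_of_mul_four` (helper124).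
-/
import Fermat.Agent.S43.E0.Orth.Top
import Fermat.Agent.S43.E0.O.Span
import Fermat.Agent.S43.E0.Pull.Level

set_option autoImplicit false

noncomputable section

namespace Fermat.Agent.S43.E0.O

open Fermat.Agent.S43.E0.Pull

/-- (O) at the levels `M q` with `4 ∣ M`. -/
theorem stmtO_of_four_dvd {M q : ℕ} [NeZero M] [NeZero q] (hq : q.Prime) (hq2 : q ≠ 2)
    (h4 : 4 ∣ M) : StmtO M q := by
  intro hc D A _ hA n hn hqn _ x y a u hau hu hy
  exact Orth.orthL hq hq2 h4 hc hA D (fun w h1 h2 => exists_span hq hc D hA w h1 h2) hn hqn a u hau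
    hu hy

/-- **(O)** at every level `M q`. -/
theorem stmtO {M q : ℕ} [NeZero M] [NeZero q] (hq : q.Prime) (hq2 : q ≠ 2) : StmtO M q :=
  stmtO_of_mul_four hq hq2 (stmtO_of_four_dvd hq hq2 (Dvd.intro_left M rfl))

end Fermat.Agent.S43.E0.O

end
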