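/-
Row 37 (S43), block E0, sub-block (O) (helper19): **(O) at level `M q`, `4 ∣ M`, every odd prime `q`**,
from the landed leaves: `orth_abs` (TopSpan), `exists_cen` (Ctr), `finite_modelPt_notMem` (Fin, helper187),
`Chart.move_set` (helper248), `exists_local_root` (Root), `hubO` (HubAll, helper97).
The toric function `w = b.f` enters through its expansion (SPAN).
-/
import Fermat.Agent.S43.E0.O.TopSpan
import Fermat.Agent.S43.E0.O.Ctr
import Fermat.Agent.S43.E0.O.Fin
import Fermat.Agent.S43.E0.O.Root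
import Fermat.Agent.S43.E0.O.HubAll
import Fermat.Agent.S43.E0.Chart.Export
import Fermat.Agent.S15.LocN.Jac
import Fermat.Agent.BAD.Bridge.HorDiv
import Fermat.Agent.Lib.InertiaField.Hensel

set_option autoImplicit false

noncomputable section

namespace Fermat.Agent.S43.E0.O

open ModularCurve AlgebraicCurve Fermat.Agent.S24 Fermat.Agent.S24.FF Fermat.Agent.S27
  Fermat.Agent.S18 Fermat.Agent.S36.BP Fermat.Agent.BAD.LevelQ Fermat.Agent.BAD.LevelQ.Mod
  Fermat.Agent.BAD.Bridge Fermat.Agent.Lib.InertiaField Fermat.Agent.S44.X.Cover Fermat.Agent.GAL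
  Fermat.Agent.S19.Weil Fermat.Agent.S15.LocN

variable {M q : ℕ} [NeZero M] [NeZero q] {A : ValuationSubring Kbar}

/-- **(O) at level `M q`, `4 ∣ M`**, in the SPAN form. -/
theorem orth4 (hq : q.Prime) (hq2 : q ≠ 2) (h4 : 4 ∣ M) (hc : M.Coprime q)
    (hA : A.LiesOverPrime q) [IsDiscreteValuationRing (A0 A)] {n : ℕ} (hn : 0 < n)
    (hqn : ¬ q ∣ n) {x y : JZero (M * q)} (a : TorsRep n x) (b : TorsRep n y)
    (u : BAD.Bridge.FK (K0 A) (M * q)) (hau : a.f = bcX (K0 A) (M * q) u)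
    (hu : ∀ k, (VV (A0 A) hc k).valuation u = 1)
    {m : ℕ} (c : Fin m → Kbar) (ε : Fin m → BAD.Bridge.FK (K0 A) (M * q))
    (hc1 : ∀ i, A.valuation (c i) < 1) (hε : ∀ i k, ε i ∈ VV (A0 A) hc k)
    (hspan : b.f - 1 = ∑ i, algebraMap Kbar (FN (M * q)) (c i) * bcX (K0 A) (M * q) (ε i)) :
    weil n x y = 1 := by
  obtain ⟨x', γ, X, Y, H, hEta, -, hnode⟩ := hubO hq hq2 h4 hc hA
  have hac := isAlgClosed_residueField_A0 A q hq hA
  haveI : CharZero (K0 A) := algebraRat.charZero (K0 A)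
  have hnA : A.valuation (n : Kbar) = 1 := by
    have h1 : (n : Kbar) ∉ A.nonunits := Hensel.natCast_not_mem_nonunits A q hq hA hqn
    have h2 : (n : Kbar) ∈ A := natCast_mem A n
    refine le_antisymm ((A.valuation_le_one_iff _).2 h2) (not_lt.1 fun h => h1 ?_)
    exact (ValuationSubring.mem_nonunits_iff _).2 h
  have hu0 : u ≠ 0 := by
    rintro rfl
    have := hu 0
    rw [map_zero] at this
    exact zero_ne_one this
  have hkum : GAL.E.IsKum (M * q) n (bc A (M * q) u) := by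
    have := TorsRep.isKum a
    rwa [hau] at this
  have hd : HorDiv (K0 A) n u := horDiv_of_isKum A (M * q) n u hu0 hkum
  refine orth_abs hn A hnA (bcX (K0 A) (M * q))
    {R | IsModelPt (A0 A) (q : K0 A) (xx (al (K0 A) M q) (be (K0 A) M q) x') R}
    {f | ∀ k, f ∈ VV (A0 A) hc k} (fun v => exists_cen hq hA (M * q) _ v)
    (fun f hf => finite_modelPt_notMem H.mChart hf) a b u hau
    (fun Z hZ hfin => Chart.move_set H.mChart hac hn.ne' (fun R hR => ?_) Z hZ hfin)
    c ε hc1 hε hspan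
  obtain ⟨g, hg0, hg⟩ := exists_local_root hac H hEta hR (hnode R hR) hu hd
  refine ⟨g⁻¹, ?_⟩
  have e : g⁻¹ ^ n * u = u / g ^ n := by
    rw [inv_pow, div_eq_mul_inv]
    exact mul_comm _ _
  rw [e]
  exact hg

end Fermat.Agent.S43.E0.O

end
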