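/-
S43 / E0 / (O), auxiliary to leaf SPAN (Mathlib only): a sum of terms with pairwise distinct
valuations has the maximal valuation; in particular every term is bounded by the sum.
-/
import Mathlib

set_option autoImplicit false

namespace Fermat.Agent.S43.E0.O

variable {R : Type*} [Ring R] {Γ₀ : Type*} [LinearOrderedCommGroupWithZero Γ₀] {ι : Type*}

/-- If the nonzero values `v (f i)`, `i ∈ s`, are pairwise distinct then `v (∑ f)` is the largest
of them. -/
theorem exists_map_sum_eq_of_distinct (v : Valuation R Γ₀) (s : Finset ι) (f : ι → R)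
    (h : ∀ i ∈ s, ∀ j ∈ s, i ≠ j → v (f i) = v (f j) → v (f i) = 0) (hs : s.Nonempty) :
    ∃ i ∈ s, v (∑ j ∈ s, f j) = v (f i) ∧ ∀ j ∈ s, v (f j) ≤ v (f i) := by
  classical
  induction s using Finset.induction_on with
  | empty => exact absurd hs Finset.not_nonempty_empty
  | insert a s ha ih =>
    rw [Finset.sum_insert ha]
    rcases s.eq_empty_or_nonempty with rfl | hne
    · exact ⟨a, by simp, by simp, by simp⟩
    · obtain ⟨i, hi, hsum, hmax⟩ := ih (fun i hi j hj => h i (Finset.mem_insert_of_mem hi) j
        (Finset.mem_insert_of_mem hj)) hne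
      have hai : a ≠ i := fun e => ha (e ▸ hi)
      rcases lt_trichotomy (v (f a)) (v (f i)) with hlt | heq | hgt
      · refine ⟨i, Finset.mem_insert_of_mem hi, ?_, ?_⟩
        · rw [← hsum]
          exact v.map_add_eq_of_lt_right (by rw [hsum]; exact hlt)
        · intro j hj
          rcases Finset.mem_insert.1 hj with rfl | hj
          · exact hlt.le
          · exact hmax j hj
      · have h0 : v (f a) = 0 := h a (Finset.mem_insert_self a s) i (Finset.mem_insert_of_mem hi)
          hai heq
        refine ⟨a, Finset.mem_insert_self a s, ?_, ?_⟩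
        · have h1 : v (∑ j ∈ s, f j) = 0 := by rw [hsum, ← heq, h0]
          refine le_antisymm ?_ (by rw [h0]; exact zero_le)
          refine (v.map_add _ _).trans ?_
          rw [h1, h0, max_self]
        · intro j hj
          rcases Finset.mem_insert.1 hj with rfl | hj
          · exact le_rfl
          · rw [heq]; exact hmax j hj
      · refine ⟨a, Finset.mem_insert_self a s, ?_, ?_⟩
        · exact v.map_add_eq_of_lt_left (by rw [hsum]; exact hgt)
        · intro j hj
          rcases Finset.mem_insert.1 hj with rfl | hj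
          · exact le_rfl
          · exact (hmax j hj).trans hgt.le

/-- Every term is bounded by the sum. -/
theorem map_le_map_sum_of_distinct (v : Valuation R Γ₀) (s : Finset ι) (f : ι → R)
    (h : ∀ i ∈ s, ∀ j ∈ s, i ≠ j → v (f i) = v (f j) → v (f i) = 0) {i : ι} (hi : i ∈ s) :
    v (f i) ≤ v (∑ j ∈ s, f j) := by
  obtain ⟨k, -, hk, hmax⟩ := exists_map_sum_eq_of_distinct v s f h ⟨i, hi⟩
  rw [hk]
  exact hmax i hi

end Fermat.Agent.S43.E0.O
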