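/-
Row 37 (S43), block E0, node (O) / ROOT (helper97): LOCAL ROOTS at all the closed points of the model.

Input: a hub `H : LQ ..`, `E : Eta ..`, `FinAt`, and the dichotomy `(x ∈ R ∧ y ∈ R) ∨ Away R (V 0) ∨ Away R (V 1)`
(`E0/O/HubAll.lean`: `hubO`, every odd `q`).  Output: for `u` a unit at both vertical valuations whose horizontal divisor
is divisible by `n`, and every closed point `R` of the model, `∃ g, RUnit R (g ^ n * u)`  (the hypothesis `hloc` of
`E0/Chart/Export.lean : move_set`), hence `(move)` of `E0/O/Top.lean`.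
-/
import Fermat.Agent.BAD.LevelQ.Pt.B.ExportDepth
import Fermat.Agent.S44.Depth.Abs.Slope
import Fermat.Agent.S43.E0.Chart.Export

set_option autoImplicit false
set_option linter.unusedSectionVars false

noncomputable section

namespace Fermat.Agent.S43.E0.O

open Polynomial IntermediateField Fermat.Agent.S18 Fermat.Agent.S36.BP Fermat.Agent.BAD.Model
  Fermat.Agent.BAD.LevelQ Fermat.Agent.S44

variable {K₀ F' F : Type*} [Field K₀] [Field F'] [Field F] [Algebra K₀ F'] [Algebra K₀ F]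
variable {A₀ : ValuationSubring K₀} {ϖ₀ : K₀} {q : ℕ} {al be : F' →ₐ[K₀] F} {w : F ≃ₐ[K₀] F}
  {γ : F' →+* F'} {Ow' : ValuationSubring F'} {V : Fin 2 → ValuationSubring F} {x' : F'}
  {R : Subring F}
variable {x y : F}

/-- the dichotomy at the closed points. -/
def Dich (A₀ : ValuationSubring K₀) (ϖ₀ : K₀) (V : Fin 2 → ValuationSubring F) (z x y : F) : Prop :=
  ∀ R, IsModelPt A₀ ϖ₀ z R → (x ∈ R ∧ y ∈ R) ∨ Away R (V 0) ∨ Away R (V 1)

section

variable [CharZero K₀] (hac : IsAlgClosed (IsLocalRing.ResidueField A₀))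
  (H : LQ A₀ ϖ₀ q al be w γ Ow' V x') (E : Eta (algebraMap K₀ F ϖ₀) V x y)
  (hD : Dich A₀ ϖ₀ V (xx al be x') x y)
  (hfin : ∀ R, IsModelPt A₀ ϖ₀ (xx al be x') R → FinAt A₀ R)

include hac H E hD hfin

/-- every closed point is a node or a smooth point. -/
theorem rootHub_classify (hR : IsModelPt A₀ ϖ₀ (xx al be x') R) :
    Depth.IsNode A₀ ϖ₀ (V 0) (V 1) x y R ∨ (Depth.IsSm A₀ ϖ₀ (V 0) R ∧ Away R (V 1)) ∨
      (Depth.IsSm A₀ ϖ₀ (V 1) R ∧ Away R (V 0)) := by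
  have hB : PtBaseM A₀ ϖ₀ V R := hR.ptBaseM H.mChart
  have c01 : LeLoc R (V 0) → Away R (V 1) → Depth.IsSm A₀ ϖ₀ (V 0) R ∧ Away R (V 1) :=
    fun h0 a1 => ⟨H.isSm hac hR 0 h0 (fun i' hi' => by
      have : i' = 1 := by omega
      rw [this]; exact a1), a1⟩
  have c10 : LeLoc R (V 1) → Away R (V 0) → Depth.IsSm A₀ ϖ₀ (V 1) R ∧ Away R (V 0) :=
    fun h1 a0 => ⟨H.isSm hac hR 1 h1 (fun i' hi' => by
      have : i' = 0 := by omega
      rw [this]; exact a0), a0⟩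
  rcases hB.leLoc_or_away 0 with h0 | a0
  · rcases hB.leLoc_or_away 1 with h1 | a1
    · rcases hD R hR with ⟨hx, hy⟩ | hA | hA
      · exact Or.inl (H.isNode hac E hR hx hy h0 h1 (hfin R hR))
      · exact absurd hA (ExportDepth.not_away_of_leLoc h0)
      · exact absurd hA (ExportDepth.not_away_of_leLoc h1)
    · exact Or.inr (Or.inl (c01 h0 a1))
  · rcases hB.leLoc_or_away 1 with h1 | a1
    · exact Or.inr (Or.inr (c10 h1 a0))
    · exact absurd (Fin.forall_fin_two.2 ⟨a0, a1⟩) hB.not_all_away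

/-- the nodal model at `e = 1`, with the tautological sets of points. -/
theorem rootHub_nodalModel :
    Depth.NodalModel A₀ ϖ₀ 1 (V 0) (V 1) x y {R | Depth.IsSm A₀ ϖ₀ (V 0) R}
      {R | Depth.IsSm A₀ ϖ₀ (V 1) R} {R | Depth.IsNode A₀ ϖ₀ (V 0) (V 1) x y R} where
  unifA := H.vert'.unif₀
  unifi := H.unif_all 0
  unif0 := H.unif_all 1
  consti := H.complete.const_mem 0
  const0 := H.complete.const_mem 1
  e_pos := one_pos
  xy := ⟨ϖ₀, by simp, E.mul_eq⟩
  x_i := E.x_unit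
  y_0 := E.y_unit
  smi := fun _ h => h
  sm0 := fun _ h => h
  nd := fun _ h => h
  regi := fun f hf h => H.mChart.const_of_regular hac 0 hf (fun R hR hL => h R (by
    rcases rootHub_classify hac H E hD hfin hR with hn | ⟨hs, -⟩ | ⟨-, ha⟩
    · exact Or.inr hn
    · exact Or.inl hs
    · exact absurd ha (ExportDepth.not_away_of_leLoc hL)))
  reg0 := fun f hf h => H.mChart.const_of_regular hac 1 hf (fun R hR hL => h R (by
    rcases rootHub_classify hac H E hD hfin hR with hn | ⟨-, ha⟩ | ⟨hs, -⟩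
    · exact Or.inr hn
    · exact absurd ha (ExportDepth.not_away_of_leLoc hL)
    · exact Or.inl hs))

end

/-- a constant which is a unit at a vertical valuation is a unit of `A₀`. -/
theorem rootHub_const {W : ValuationSubring F} (hA : IsUnif A₀ ϖ₀)
    (hW : IsUnif W (algebraMap K₀ F ϖ₀)) (hc : ∀ a ∈ A₀, algebraMap K₀ F a ∈ W) {κ : K₀}
    (hκ : κ ≠ 0) (h : W.valuation (algebraMap K₀ F κ) = 1) : A₀.valuation κ = 1 := by
  obtain ⟨k, hk⟩ := ord_exists_val hA hκ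
  have h1 := Depth.slope_val_const hA hc hk
  rw [h] at h1
  have h2 : k = 0 := (ord_zpow_inj hW (by rw [zpow_zero]; exact h1)).symm
  rw [hk, h2, zpow_zero]

theorem rootHub_runit_const (hR : IsPt A₀ R) {a : K₀} (ha : A₀.valuation a = 1) :
    RUnit R (algebraMap K₀ F a) := by
  obtain ⟨h0, h1, h2⟩ := val_eq_one_iff.1 ha
  refine ⟨(_root_.map_ne_zero _).2 h0, hR.const_mem _ h1, ?_⟩
  rw [← map_inv₀]
  exact hR.const_mem _ h2

/-- local root at a smooth point. -/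
theorem rootHub_sm {W : ValuationSubring F} (hA : IsUnif A₀ ϖ₀)
    (hW : IsUnif W (algebraMap K₀ F ϖ₀)) (hc : ∀ a ∈ A₀, algebraMap K₀ F a ∈ W)
    (hS : Depth.IsSm A₀ ϖ₀ W R) {n : ℕ} (hn : n ≠ 0) {u : F} (hu : W.valuation u = 1)
    (hd : HorDiv K₀ n u) : ∃ g : F, g ≠ 0 ∧ RUnit R (u / g ^ n) := by
  have hu0 : u ≠ 0 := ne_zero_of_val_eq_one hu
  obtain ⟨κ, G, hκ, hG, hr⟩ := Depth.lf_sm hA hW hS hn hu0 hd
  have hG0 : G ≠ 0 := ne_zero_of_val_eq_one hG
  have hκF : algebraMap K₀ F κ ≠ 0 := (_root_.map_ne_zero _).2 hκ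
  have h1 := hr.val_eq_one hS.thr.le
  rw [map_div₀, hu, map_mul, map_pow, hG, one_pow, mul_one, one_div, inv_eq_one] at h1
  have h2 := rootHub_runit_const hS.isPt (rootHub_const hA hW hc hκ h1)
  refine ⟨G, hG0, ?_⟩
  have e : u / G ^ n = u / (algebraMap K₀ F κ * G ^ n) * algebraMap K₀ F κ := by
    have := pow_ne_zero n hG0
    field_simp
  rw [e]
  exact hr.mul h2

/-- local root at a node. -/
theorem rootHub_node {Vi V0 : ValuationSubring F} {Smi Sm0 Nd : Set (Subring F)}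
    (M : Depth.NodalModel A₀ ϖ₀ 1 Vi V0 x y Smi Sm0 Nd) (hR : R ∈ Nd) {n : ℕ} (hn : n ≠ 0) {u : F}
    (hi : Vi.valuation u = 1) (h0 : V0.valuation u = 1) (hd : HorDiv K₀ n u) :
    ∃ g : F, g ≠ 0 ∧ RUnit R (u / g ^ n) := by
  have hu0 : u ≠ 0 := ne_zero_of_val_eq_one hi
  obtain ⟨b, ν, κ, G, hκ, hG, hr, -, hb⟩ := Depth.slope_exists_node M hn hu0 hd (ai := 0) (a0 := 0)
    (by rw [hi, zpow_zero]) (by rw [h0, zpow_zero]) hR
  have hN := M.nd R hR
  have hG0 : G ≠ 0 := ne_zero_of_val_eq_one hG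
  have hx0 : x ≠ 0 := ne_zero_of_val_eq_one M.x_i
  have hκF : algebraMap K₀ F κ ≠ 0 := (_root_.map_ne_zero _).2 hκ
  have h1 := hr.val_eq_one hN.thri.le
  rw [map_div₀, hi, map_mul, map_mul, map_pow, hG, one_pow, mul_one, map_zpow₀, M.x_i, one_zpow,
    mul_one, one_div, inv_eq_one] at h1
  have h2 := rootHub_runit_const hN.isPt (rootHub_const M.unifA M.unifi M.consti hκ h1)
  have hb' : b = (-ν) * n := by
    have : (0 : ℤ) - 0 = ((1 : ℕ) : ℤ) * b + n * ν := hb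
    push_cast at this
    linarith
  refine ⟨x ^ (-ν) * G, mul_ne_zero (zpow_ne_zero _ hx0) hG0, ?_⟩
  have e : u / (x ^ (-ν) * G) ^ n = u / (algebraMap K₀ F κ * x ^ b * G ^ n) * algebraMap K₀ F κ := by
    have h3 := pow_ne_zero n hG0
    have h4 : x ^ b = (x ^ (-ν)) ^ n := by rw [hb', zpow_mul, zpow_natCast]
    have h5 : (x ^ (-ν)) ^ n ≠ 0 := pow_ne_zero n (zpow_ne_zero _ hx0)
    rw [h4, mul_pow]
    field_simp
  rw [e]
  exact hr.mul h2

section

variable [CharZero K₀] (hac : IsAlgClosed (IsLocalRing.ResidueField A₀))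
  (H : LQ A₀ ϖ₀ q al be w γ Ow' V x') (E : Eta (algebraMap K₀ F ϖ₀) V x y)
  (hD : Dich A₀ ϖ₀ V (xx al be x') x y)
  (hfin : ∀ R, IsModelPt A₀ ϖ₀ (xx al be x') R → FinAt A₀ R)

include hac H E hD hfin

/-- **ROOT**: local `n`-th roots, up to units, at all the closed points of the model. -/
theorem rootHub {n : ℕ} (hn : n ≠ 0) {u : F} (hu : ∀ c, (V c).valuation u = 1)
    (hd : HorDiv K₀ n u) (hR : IsModelPt A₀ ϖ₀ (xx al be x') R) :
    ∃ g : F, g ≠ 0 ∧ RUnit R (u / g ^ n) := by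
  rcases rootHub_classify hac H E hD hfin hR with hN | ⟨hS, -⟩ | ⟨hS, -⟩
  · exact rootHub_node (rootHub_nodalModel hac H E hD hfin) hN hn (hu 0) (hu 1) hd
  · exact rootHub_sm H.vert'.unif₀ (H.unif_all 0) (H.complete.const_mem 0) hS hn (hu 0) hd
  · exact rootHub_sm H.vert'.unif₀ (H.unif_all 1) (H.complete.const_mem 1) hS hn (hu 1) hd

/-- **ROOT**, in the shape `hloc` of `Chart.move_set`. -/
theorem rootHub' {n : ℕ} (hn : n ≠ 0) {u : F} (hu : ∀ c, (V c).valuation u = 1)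
    (hd : HorDiv K₀ n u) (R : Subring F) (hR : IsModelPt A₀ ϖ₀ (xx al be x') R) :
    ∃ g : F, RUnit R (g ^ n * u) := by
  obtain ⟨g, hg0, hg⟩ := rootHub hac H E hD hfin hn hu hd hR
  refine ⟨g⁻¹, ?_⟩
  have e : g⁻¹ ^ n * u = u / g ^ n := by rw [inv_pow, div_eq_mul_inv, mul_comm]
  rw [e]
  exact hg

/-- **(move)** of `E0/O/Top.lean : weil_eq_one_of_span`. -/
theorem rootHub_move {n : ℕ} (hn : n ≠ 0) {u : F} (hu : ∀ c, (V c).valuation u = 1)
    (hd : HorDiv K₀ n u) (Z : Set (Subring F))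
    (hZ : Z ⊆ {R | IsModelPt A₀ ϖ₀ (xx al be x') R}) (hZfin : Z.Finite) :
    ∃ f : F, f ≠ 0 ∧ ∀ R ∈ Z, f ^ n * u - 1 ∈ rad R :=
  Chart.move_set H.mChart hac hn (rootHub' hac H E hD hfin hn hu hd) Z hZ hZfin

end

end Fermat.Agent.S43.E0.O

end
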