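/-
Row 37 (S43), block E0, sub-block (O), leaf (T), part 1 (helper35).

Bridge between the Gauss valuation ring `Og (A0 A) N` of `FK (K0 A) N` (inertia field) and the series level
reduction `S28.Export.Red A` over `ℚ̄`; every element of the residue field `k(X₀(M))` of the Gauss valuation
of `FN (M * q)` is the reduction of a function with coefficients in the inertia field.
-/
import Fermat.Agent.BAD.Bridge.Defs
import Fermat.Agent.BAD.LevelQ.Mod.Gauss
import Fermat.Agent.S44.X.Red.ResField
import Fermat.Agent.Lib.InertiaField.Residue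
import Fermat.Agent.Lib.InertiaField.Unram

set_option autoImplicit false

noncomputable section

namespace Fermat.Agent.S43.E0.O

open ModularCurve AlgebraicCurve Fermat.Agent.S24 Fermat.Agent.Lib.InertiaField
  Fermat.Agent.S28.Export Fermat.Agent.BAD.Bridge Fermat.Agent.BAD.LevelQ.Mod
  Fermat.Agent.S36.Mod Fermat.Agent.S18.Vert

variable (A : ValuationSubring Qb)

/-- the inclusion `A0 A → A`. -/
def inA0 : A0 A →+* A :=
  ((algebraMap (K0 A) Qb).comp (A0 A).subtype).codRestrict A.toSubring (fun x => x.2)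

theorem coe_inA0 (x : A0 A) : ((inA0 A x : A) : Qb) = algebraMap (K0 A) Qb (x : K0 A) := rfl

/-- coefficientwise `A0 A → A`. -/
def upS : LaurentSeries (A0 A) →+* LaurentSeries A := coeffMap (inA0 A)

theorem iota_upS (P : LaurentSeries (A0 A)) :
    iota A (upS A P) = coeffMap (algebraMap (K0 A) Qb) (inc (A0 A) P) := by
  ext n
  rfl

theorem rho_upS_ne_zero {P : LaurentSeries (A0 A)} (h : red (A0 A) P ≠ 0) :
    rho A (upS A P) ≠ 0 := by
  intro h0
  apply h
  ext n
  have h1 : (rho A (upS A P)).coeff n = 0 := by rw [h0]; rfl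
  have h2 : IsLocalRing.residue A (inA0 A (P.coeff n)) = 0 := h1
  show IsLocalRing.residue (A0 A) (P.coeff n) = 0
  rw [IsLocalRing.residue_eq_zero_iff] at h2 ⊢
  rw [IsLocalRing.mem_maximalIdeal, mem_nonunits_iff] at h2 ⊢
  intro hu
  exact h2 (hu.map (inA0 A))

variable {A}

section Bridge

variable [IsDiscreteValuationRing (A0 A)] {N : ℕ}

/-- (L1) Gauss integral over the inertia field ⟹ reducible over `ℚ̄`. -/
theorem exists_red_of_mem_Og {f : FK (K0 A) N} (hf : f ∈ Og (A0 A) N) :
    ∃ g, Red A ((bc A N f : FN N) : LaurentSeries Qb) g := by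
  obtain ⟨P, Q, hQ, h⟩ := ((stdEmb (A0 A) N).mem_val_iff f).1 hf
  have hQ' := rho_upS_ne_zero A hQ
  refine ⟨rho A (upS A P) / rho A (upS A Q), upS A P, upS A Q, hQ', ?_, div_mul_cancel₀ _ hQ'⟩
  rw [iota_upS, iota_upS, ← h, map_mul, coe_bc]
  rfl

/-- (L2) a Gauss unit has a nonzero reduction. -/
theorem exists_red_ne_zero_of_unit {f : FK (K0 A) N} (hf : (Og (A0 A) N).valuation f = 1) :
    ∃ g, g ≠ 0 ∧ Red A ((bc A N f : FN N) : LaurentSeries Qb) g := by
  have hf0 : f ≠ 0 := by
    rintro rfl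
    rw [map_zero] at hf
    exact zero_ne_one hf
  have h1 : f ∈ Og (A0 A) N := ((Og (A0 A) N).valuation_le_one_iff f).1 hf.le
  have h2 : f⁻¹ ∈ Og (A0 A) N := by
    rw [← (Og (A0 A) N).valuation_le_one_iff, map_inv₀, hf, inv_one]
  obtain ⟨g, hg⟩ := exists_red_of_mem_Og h1
  obtain ⟨g', hg'⟩ := exists_red_of_mem_Og h2
  refine ⟨g, ?_, hg⟩
  rintro rfl
  have h3 := hg.mul hg'
  have e : ((bc A N f : FN N) : LaurentSeries Qb) * ((bc A N f⁻¹ : FN N) : LaurentSeries Qb) = 1 := by
    have : bc A N f * bc A N f⁻¹ = 1 := by rw [← map_mul, mul_inv_cancel₀ hf0, map_one]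
    exact congrArg Subtype.val this
  rw [e, zero_mul] at h3
  exact one_ne_zero (red_one.unique h3)

/-- (L3) reduction zero over `ℚ̄` ⟹ in the maximal ideal over the inertia field. -/
theorem valuation_lt_one_of_red_zero {f : FK (K0 A) N}
    (hf : Red A ((bc A N f : FN N) : LaurentSeries Qb) 0) : (Og (A0 A) N).valuation f < 1 := by
  by_contra hcon
  have hf0 : f ≠ 0 := by
    rintro rfl
    rw [map_zero] at hcon
    exact hcon zero_lt_one
  have h2 : f⁻¹ ∈ Og (A0 A) N := by
    rw [← (Og (A0 A) N).valuation_le_one_iff, map_inv₀]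
    exact inv_le_one_of_one_le₀ (not_lt.1 hcon)
  obtain ⟨g', hg'⟩ := exists_red_of_mem_Og h2
  have h3 := hf.mul hg'
  have e : ((bc A N f : FN N) : LaurentSeries Qb) * ((bc A N f⁻¹ : FN N) : LaurentSeries Qb) = 1 := by
    have : bc A N f * bc A N f⁻¹ = 1 := by rw [← map_mul, mul_inv_cancel₀ hf0, map_one]
    exact congrArg Subtype.val this
  rw [e, zero_mul] at h3
  exact one_ne_zero (red_one.unique h3)

end Bridge

section Lift

variable {q : ℕ}

/-- The reductions of the functions of level `N` with coefficients in the inertia field. -/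
def liftField (hq : q.Prime) (hA : A.LiesOverPrime q) (N : ℕ) :
    IntermediateField (IsLocalRing.ResidueField A)
      (LaurentSeries (IsLocalRing.ResidueField A)) where
  carrier := {g | ∃ f : FK (K0 A) N, Red A ((bc A N f : FN N) : LaurentSeries Qb) g}
  mul_mem' := by
    rintro a b ⟨f, h⟩ ⟨f', h'⟩
    refine ⟨f * f', ?_⟩
    rw [map_mul]
    exact h.mul h'
  one_mem' := ⟨1, by rw [map_one]; exact red_one⟩
  add_mem' := by
    rintro a b ⟨f, h⟩ ⟨f', h'⟩
    refine ⟨f + f', ?_⟩
    rw [map_add]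
    exact h.add h'
  zero_mem' := ⟨0, by rw [map_zero]; exact red_zero⟩
  algebraMap_mem' := by
    intro r
    obtain ⟨c, rfl⟩ := IsLocalRing.residue_surjective r
    obtain ⟨b, hb0, hbA, hcb⟩ := exists_mem_K0_sub_mem A q hq hA c.2
    refine ⟨algebraMap (K0 A) (FK (K0 A) N) ⟨b, hb0⟩, ?_⟩
    rw [bc_algebraMap]
    have e1 : ((algebraMap Kbar (FN N) b : FN N) : LaurentSeries Qb) = HahnSeries.C b :=
      algebraMap_laurentSeries_eq_single Qb b
    have e2 : IsLocalRing.residue A c = IsLocalRing.residue A ⟨b, hbA⟩ := by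
      rw [← sub_eq_zero, ← map_sub, IsLocalRing.residue_eq_zero_iff]
      obtain ⟨h1, h2⟩ := ValuationSubring.mem_nonunits_iff_exists_mem_maximalIdeal.1 hcb
      exact h2
    show Red A ((algebraMap Kbar (FN N) b : FN N) : LaurentSeries Qb) _
    rw [e1, algebraMap_laurentSeries_eq_single, e2]
    exact red_C (⟨b, hbA⟩ : A)
  inv_mem' := by
    rintro a ⟨f, h⟩
    by_cases ha : a = 0
    · rw [ha, inv_zero]; exact ⟨0, by rw [map_zero]; exact red_zero⟩
    · refine ⟨f⁻¹, ?_⟩
      rw [map_inv₀]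
      exact h.inv ha

/-- (L4) **LIFT**: every element of `k(X₀(M))` is the reduction of a function of level `N`, `M ∣ N`, with
coefficients in the inertia field. -/
theorem exists_lift (hq : q.Prime) (hA : A.LiesOverPrime q) {M N : ℕ} (hMN : M ∣ N)
    {g : LaurentSeries (IsLocalRing.ResidueField A)}
    (hg : g ∈ modularFunctionFieldFullC (IsLocalRing.ResidueField A) M) :
    ∃ f : FK (K0 A) N, Red A ((bc A N f : FN N) : LaurentSeries Qb) g := by
  have hle : modularFunctionFieldFullC (IsLocalRing.ResidueField A) M ≤ liftField hq hA N := by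
    rw [modularFunctionFieldFullC, IntermediateField.adjoin_le_iff]
    rintro x ⟨d, hd, hdM, rfl⟩
    refine ⟨⟨coeffEmb (K0 A) (qExpand ℚ d jq),
      coeffEmb_mem_laurentBaseChange (K0 A) (jqd_mem_full N (hdM.trans hMN))⟩, ?_⟩
    have e : ((bc A N ⟨coeffEmb (K0 A) (qExpand ℚ d jq),
        coeffEmb_mem_laurentBaseChange (K0 A) (jqd_mem_full N (hdM.trans hMN))⟩ : FN N) :
        LaurentSeries Qb) = Jser d := by
      rw [coe_bc]
      exact S18.Descent.coeffMap_coeffEmb' _ _
    rw [e]
    exact S44.X.red_Jser d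
  exact hle hg

end Lift

end Fermat.Agent.S43.E0.O

end
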