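/-
Row 37 (S43), block E0, sub-block (O), leaf (T), part 2 (helper35).

One valuation: `u₀` a Gauss unit with coefficients in the inertia field, `bc u₀ * h ^ n ≡ 1` over `ℚ̄`
⟹ `u₀ * g ^ n ≡ 1` for some `g` with coefficients in the inertia field.
-/
import Fermat.Agent.S43.E0.O.ToricLift
import Fermat.Agent.C1.Defs

set_option autoImplicit false

noncomputable section

namespace Fermat.Agent.S43.E0.O

open ModularCurve AlgebraicCurve Fermat.Agent.S24 Fermat.Agent.Lib.InertiaField
  Fermat.Agent.S28.Export Fermat.Agent.BAD.Bridge Fermat.Agent.BAD.LevelQ.Mod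
  Fermat.Agent.S36.Mod Fermat.Agent.GAL

variable {A : ValuationSubring Qb}

/-- `Cong1` at the series level. -/
theorem red_one_of_cong1 {N : ℕ} {u : FN N} (h : C1.Cong1 A N u) :
    Red A (u : LaurentSeries Qb) 1 := by
  obtain ⟨P, Q, hP, hQ, hPQ, hQ0, rfl⟩ := h
  have h1 : Red A (E.incl A P / E.incl A Q) (E.red A P / E.red A Q) :=
    (red_iota P).div (red_iota Q) hQ0
  rw [hPQ, div_self hQ0] at h1
  exact h1

/-- A nonzero function whose `n`-th power times a function with nonzero reduction reduces to a nonzero series has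
itself a nonzero reduction. -/
theorem exists_red_of_mul_pow {q : ℕ} (hq : q.Prime) (hA : A.LiesOverPrime q) {N n : ℕ} (hn : 0 < n)
    {f : LaurentSeries Qb} {fbar : LaurentSeries (IsLocalRing.ResidueField A)} (hf : Red A f fbar)
    (hf0 : fbar ≠ 0) {h : FN N} (hh : h ≠ 0)
    {r : LaurentSeries (IsLocalRing.ResidueField A)}
    (hr : Red A (f * (h : LaurentSeries Qb) ^ n) r) :
    ∃ hbar, Red A (h : LaurentSeries Qb) hbar := by
  obtain ⟨c, x, y, hx, hy, hc, hrx, hry, e⟩ := E.exists_scaling A q hq hA N h hh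
  have h1 : Red A (E.incl A x / E.incl A y) (E.red A x / E.red A y) :=
    (red_iota x).div (red_iota y) hry
  have h10 : E.red A x / E.red A y ≠ 0 := div_ne_zero hrx hry
  have e0 : (h : LaurentSeries Qb) =
      algebraMap Qb (LaurentSeries Qb) c * (E.incl A x / E.incl A y) := by
    rw [e]
    rfl
  have e1 : (h : LaurentSeries Qb) = HahnSeries.C c * (E.incl A x / E.incl A y) := by
    rw [e0, E.scaling_algebraMap]
  have e2 : f * (h : LaurentSeries Qb) ^ n =
      (c ^ n) • (f * (E.incl A x / E.incl A y) ^ n) := by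
    rw [e1, smul_eq_C_mul, map_pow]
    ring
  rw [e2] at hr
  have h2 := hf.mul (h1.pow n)
  have hcn : c ^ n ∈ A := mem_of_red_smul h2 (mul_ne_zero hf0 (pow_ne_zero n h10)) hr
  have hcA : c ∈ A := by
    rw [← A.valuation_le_one_iff] at hcn ⊢
    rw [map_pow] at hcn
    exact (pow_le_one_iff_of_nonneg zero_le hn.ne').1 hcn
  have h3 := h1.smul ⟨c, hcA⟩
  rw [smul_eq_C_mul, ← e1] at h3
  exact ⟨_, h3⟩

variable [IsDiscreteValuationRing (A0 A)]

/-- **(T), one valuation.** -/
theorem exists_root_Og {q : ℕ} [NeZero q] (hq : q.Prime) (hA : A.LiesOverPrime q) {M : ℕ} [NeZero M]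
    (hqM : ¬ q ∣ M) {n : ℕ} (hn : 0 < n) {u₀ : FK (K0 A) (M * q)}
    (hu : (Og (A0 A) (M * q)).valuation u₀ = 1) {h : FN (M * q)} (hh : h ≠ 0)
    (hc : C1.Cong1 A (M * q) (bc A (M * q) u₀ * h ^ n)) :
    ∃ g : FK (K0 A) (M * q), (Og (A0 A) (M * q)).valuation (u₀ * g ^ n - 1) < 1 := by
  obtain ⟨ubar, hubar0, hubar⟩ := exists_red_ne_zero_of_unit hu
  have h1 := red_one_of_cong1 hc
  rw [IntermediateField.coe_mul, IntermediateField.coe_pow] at h1
  obtain ⟨hbar, hhbar⟩ := exists_red_of_mul_pow hq hA hn hubar hubar0 hh h1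
  have h2 : ubar * hbar ^ n = 1 := (hubar.mul (hhbar.pow n)).unique h1
  have hmem : hbar ∈ modularFunctionFieldFullC (IsLocalRing.ResidueField A) M := by
    rw [← S44.X.resField_FN_mul hq hA hqM]
    exact ⟨_, h.2, hhbar⟩
  obtain ⟨g, hg⟩ := exists_lift hq hA (dvd_mul_right M q) hmem
  refine ⟨g, valuation_lt_one_of_red_zero ?_⟩
  have h3 := ((hubar.mul (hg.pow n)).sub red_one)
  rw [h2, sub_self] at h3
  rw [map_sub, map_mul, map_pow, map_one, AddSubgroupClass.coe_sub, IntermediateField.coe_mul,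
    IntermediateField.coe_pow, IntermediateField.coe_one]
  exact h3

end Fermat.Agent.S43.E0.O

end
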