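/-
Row 37 (S43), block E0, sub-block (O), leaf (T) (helper35).

**A toric class which has a representative `bc u₀`, `u₀` a unit at the two vertical valuations of
`FK (K0 A) (M * q)`, has a representative `bc w`, `w = u₀ g ^ n ≡ 1` at the two vertical valuations.**

Proof: `ToricRoot.exists_root_Og` at `v_∞` and (through the Atkin-Lehner involution) at `v_0`; weak approximation.
-/
import Fermat.Agent.S43.E0.O.ToricRoot
import Fermat.Agent.S33.New.Br.AL
import Fermat.Agent.BAD.LevelQ.Mod.Sep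
import Fermat.Agent.BAD.Bridge.BaseHyp
import Fermat.Agent.S44.X.Slope.Approx

set_option autoImplicit false

noncomputable section

namespace Fermat.Agent.S43.E0.O

open ModularCurve AlgebraicCurve Fermat.Agent.S24 Fermat.Agent.Lib.InertiaField
  Fermat.Agent.S28.Export Fermat.Agent.BAD.Bridge Fermat.Agent.BAD.LevelQ.Mod
  Fermat.Agent.S36.Mod Fermat.Agent.GAL Fermat.Agent.S44.X.Slope

section Abs

variable {F : Type*} [Field F]

/-- powers of a non-unit kill denominators (discrete valuation). -/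
theorem exists_pow_mul_lt {V : ValuationSubring F} {ϖ : F} (h : S18.IsUnif V ϖ) {e : F}
    (he : V.valuation e < 1) (y : F) : ∃ a : ℕ, V.valuation (e ^ a * y) < 1 := by
  obtain ⟨r, hr⟩ := h.exists_pow_mul_mem y
  have hϖ0 := h.ne_zero
  rcases eq_or_ne e 0 with rfl | he0
  · exact ⟨1, by simp⟩
  have heV : e ∈ V := (V.valuation_le_one_iff e).1 he.le
  have hediv : e / ϖ ∈ V := h.div_mem heV ((val_lt_one_iff_inv_notMem V he0).1 he)
  refine ⟨r + 1, ?_⟩
  have e1 : e ^ (r + 1) * y = e * ((e / ϖ) ^ r * (ϖ ^ r * y)) := by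
    rw [div_pow, ← mul_assoc (e ^ r / ϖ ^ r), div_mul_cancel₀ _ (pow_ne_zero r hϖ0)]
    ring
  rw [e1, map_mul]
  have h2 : V.valuation ((e / ϖ) ^ r * (ϖ ^ r * y)) ≤ 1 :=
    (V.valuation_le_one_iff _).2 (V.mul_mem _ _ (V.pow_mem hediv r) hr)
  exact lt_of_le_of_lt (mul_le_of_le_one_right' h2) he

theorem val_pow_sub_pow_lt {V : ValuationSubring F} {a b : F} (ha : V.valuation a ≤ 1)
    (hb : V.valuation b ≤ 1) (h : V.valuation (a - b) < 1) (n : ℕ) :
    V.valuation (a ^ n - b ^ n) < 1 := by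
  induction n with
  | zero => simp
  | succ n ih =>
    have e : a ^ (n + 1) - b ^ (n + 1) = a * (a ^ n - b ^ n) + (a - b) * b ^ n := by ring
    rw [e]
    refine Valuation.map_add_lt _ ?_ ?_
    · rw [map_mul]
      exact lt_of_le_of_lt (mul_le_of_le_one_left' ha) ih
    · rw [map_mul, map_pow]
      exact lt_of_le_of_lt (mul_le_of_le_one_right' (pow_le_one' hb n)) h

/-- **Weak approximation** for two discrete valuation rings with a separating element. -/
theorem exists_glue {V₀ V₁ : ValuationSubring F} {ϖ : F} (h₀ : S18.IsUnif V₀ ϖ) (h₁ : S18.IsUnif V₁ ϖ)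
    {e : F} (he₀ : V₀.valuation (e - 1) < 1) (he₁ : V₁.valuation e < 1) (g₀ g₁ : F)
    (hg₀ : V₀.valuation g₀ ≤ 1) (hg₁ : V₁.valuation g₁ ≤ 1) :
    ∃ g : F, V₀.valuation (g - g₀) < 1 ∧ V₁.valuation (g - g₁) < 1 := by
  have he₀' : V₀.valuation (1 - e) < 1 := by rw [← Valuation.map_neg, neg_sub]; exact he₀
  have he₁' : V₁.valuation ((1 - e) - 1) < 1 := by
    have : (1 - e) - 1 = -e := by ring
    rw [this, Valuation.map_neg]; exact he₁
  obtain ⟨a, ha⟩ := exists_pow_mul_lt h₁ he₁ g₀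
  obtain ⟨b, hb⟩ := exists_pow_mul_lt h₀ he₀' g₁
  refine ⟨e ^ a * g₀ + (1 - e) ^ b * g₁, ?_, ?_⟩
  · have e1 : e ^ a * g₀ + (1 - e) ^ b * g₁ - g₀ = (e ^ a - 1) * g₀ + (1 - e) ^ b * g₁ := by ring
    rw [e1]
    refine Valuation.map_add_lt _ ?_ hb
    rw [map_mul]
    exact lt_of_le_of_lt (mul_le_of_le_one_right' hg₀) (val_pow_sub_one_lt he₀ a)
  · have e1 : e ^ a * g₀ + (1 - e) ^ b * g₁ - g₁ = e ^ a * g₀ + ((1 - e) ^ b - 1) * g₁ := by ring
    rw [e1]
    refine Valuation.map_add_lt _ ha ?_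
    rw [map_mul]
    exact lt_of_le_of_lt (mul_le_of_le_one_right' hg₁) (val_pow_sub_one_lt he₁' b)

/-- from `u g ^ n ≡ 1`, `u` a unit: `g` is a unit. -/
theorem val_eq_one_of_mul_pow {V : ValuationSubring F} {u g : F} {n : ℕ} (hn : 0 < n)
    (hu : V.valuation u = 1) (h : V.valuation (u * g ^ n - 1) < 1) : V.valuation g = 1 := by
  have h1 : V.valuation (u * g ^ n) = 1 := val_eq_one_of_sub_lt (map_one _) h
  rw [map_mul, hu, one_mul, map_pow] at h1
  exact (pow_eq_one_iff.1 h1).resolve_right hn.ne'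

/-- replacing `g₀` by a congruent `g`. -/
theorem val_mul_pow_sub_one_lt {V : ValuationSubring F} {u g g₀ : F} {n : ℕ} (hn : 0 < n)
    (hu : V.valuation u = 1) (h : V.valuation (u * g₀ ^ n - 1) < 1)
    (hg : V.valuation (g - g₀) < 1) : V.valuation (u * g ^ n - 1) < 1 := by
  have hg₀ : V.valuation g₀ = 1 := val_eq_one_of_mul_pow hn hu h
  have hg1 : V.valuation g = 1 := val_eq_one_of_sub_lt hg₀ hg
  have e : u * g ^ n - 1 = (u * g₀ ^ n - 1) + u * (g ^ n - g₀ ^ n) := by ring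
  rw [e]
  refine Valuation.map_add_lt _ h ?_
  rw [map_mul, hu, one_mul]
  exact val_pow_sub_pow_lt hg1.le hg₀.le hg n

end Abs

section Main

variable {A : ValuationSubring Qb} [IsDiscreteValuationRing (A0 A)] {M q : ℕ} [NeZero M] [NeZero q]

/-- the base change map commutes with the Atkin-Lehner involutions. -/
theorem bc_ww (hq : q.Prime) (D : C1.ALData M q) (hc : M.Coprime q) (y : FK (K0 A) (M * q)) :
    bc A (M * q) (ww (K0 A) hc y) = D.w (bc A (M * q) y) :=
  S33.New.tb_ww hq D hc (K0 A) y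

/-- **(T)**: a toric class with a representative which is a unit at both vertical valuations of the model over the
inertia field has a representative `≡ 1` at both. -/
theorem exists_toric_rep (hq : q.Prime) (hA : A.LiesOverPrime q) (hqM : ¬ q ∣ M) (hc : M.Coprime q)
    (D : C1.ALData M q) {n : ℕ} (hn : 0 < n) {u₀ : FK (K0 A) (M * q)}
    (hu : ∀ c, (VV (A0 A) hc c).valuation u₀ = 1) {h : FN (M * q)} (hh : h ≠ 0)
    (h1 : C1.Cong1 A (M * q) (bc A (M * q) u₀ * h ^ n))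
    (h2 : C1.Cong1 A (M * q) (D.w (bc A (M * q) u₀ * h ^ n))) :
    ∃ g : FK (K0 A) (M * q), g ≠ 0 ∧ ∀ c, (VV (A0 A) hc c).valuation (u₀ * g ^ n - 1) < 1 := by
  have hU := isUnif_A0 A q hq hA
  have hchar : (A0 A).valuation (q : K0 A) < 1 := by
    have := natCast_mem_nonunits_A0 A q hA
    rwa [ValuationSubring.mem_nonunits_iff] at this
  -- transport between `VV 1` and `VV 0`
  have hlt : ∀ z : FK (K0 A) (M * q), (VV (A0 A) hc 1).valuation z < 1 ↔
      (VV (A0 A) hc 0).valuation (ww (K0 A) hc z) < 1 := fun z =>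
    val_lt_one_iff_of_hom ((ww (K0 A) hc : FK (K0 A) (M * q) ≃ₐ[K0 A] FK (K0 A) (M * q)) :
      FK (K0 A) (M * q) →+* FK (K0 A) (M * q)) (fun y => mem_VV_one hc y) z
  have hu0 : u₀ ≠ 0 := by
    rintro rfl
    have := hu 0
    rw [map_zero] at this
    exact zero_ne_one this
  have hu1 : (Og (A0 A) (M * q)).valuation (ww (K0 A) hc u₀) = 1 := by
    have h3 := (val_eq_one_iff_mem (VV (A0 A) hc 1) hu0).1 (hu 1)
    rw [mem_VV_one hc, mem_VV_one hc, map_inv₀] at h3
    exact (val_eq_one_iff_mem (VV (A0 A) hc 0)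
      ((map_ne_zero_iff _ (ww (K0 A) hc).injective).2 hu0)).2 h3
  -- the two roots
  obtain ⟨g₀, hg₀⟩ := exists_root_Og hq hA hqM hn (hu 0) hh h1
  have hh' : D.w h ≠ 0 := (map_ne_zero_iff _ D.w.toRingHom.injective).2 hh
  rw [map_mul, map_pow, ← bc_ww hq D hc] at h2
  obtain ⟨g₁', hg₁'⟩ := exists_root_Og hq hA hqM hn hu1 hh' h2
  have hg₁ : (VV (A0 A) hc 1).valuation (u₀ * (ww (K0 A) hc g₁') ^ n - 1) < 1 := by
    rw [hlt, map_sub, map_mul, map_pow, ww_ww, map_one]
    exact hg₁'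
  -- gluing
  obtain ⟨e, he₀, he₁⟩ := exists_idem (A₀ := A0 A) hq hchar hc
  obtain ⟨g, hgg₀, hgg₁⟩ := exists_glue (isUnif_VV hU hc 0) (isUnif_VV hU hc 1) he₀ he₁ g₀
    (ww (K0 A) hc g₁') (val_eq_one_of_mul_pow hn (hu 0) hg₀).le
    (val_eq_one_of_mul_pow hn (hu 1) hg₁).le
  have hgv : (VV (A0 A) hc 0).valuation g = 1 :=
    val_eq_one_of_sub_lt (val_eq_one_of_mul_pow hn (hu 0) hg₀) hgg₀
  refine ⟨g, ?_, fun c => ?_⟩
  · rintro rfl
    rw [map_zero] at hgv
    exact zero_ne_one hgv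
  · have hd : c = 0 ∨ c = 1 := by omega
    rcases hd with rfl | rfl
    · exact val_mul_pow_sub_one_lt hn (hu 0) hg₀ hgg₀
    · exact val_mul_pow_sub_one_lt hn (hu 1) hg₁ hgg₁

end Main

end Fermat.Agent.S43.E0.O

end
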